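/-
Program DS / package (C) / row C6 (THETA), sub-package Kum : DEFINITIONS.
GENERIC port of `Fermat/Agent/G/Kum/Defs.lean` (helper22) over a level datum
`L : DscLevel ℂ (RingHom.id ℂ)` of helper17's `DS/C/Lv` (everything lives over `ℂ`):
`gfcField N ↦ L.F`, `gfc_RBar N ↦ L.R`, `gfc_toHol N ↦ L.toHol`, `Gamma0 N ↦ L.Γ`.

* `x : L.F` "is the holomorphic function `G`"  :=  `HasCuspExp 1 G x`.
* `DsckmMult L χ H`   : `H (γ τ) = χ γ * H τ` for `γ ∈ L.Γ`  (`H` has multiplier `χ`).
* `DsckmRoot L n χ x` : `x` is holomorphic on `ℍ` and has a holomorphic `n`-th root with multiplier `χ`.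
* `DsckmRel L n χ x`  : the class of `x` modulo `n`-th powers contains such an element.
* `DsckmPE L χ`       : `χ` kills the parabolic and elliptic elements (`trace² ≤ 4`; includes `-1`).
* `DsckmCusp G`       : every `SL(2,ℤ)`-translate of `G` has a (finite-tailed) expansion at `i∞`.
The Hecke transfer (`gkmTr`, `gkmHeckeHol`) is NOT here (helper8's Hecke files).
-/
import Mathlib
import Fermat.Agent.DS.C.Lv.EmbPoint
import Fermat.Agent.DS.C.Lv.EmbCusp
import Fermat.Agent.DS.C.Lv.Degree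
import Fermat.Agent.G.Desc.Defs

set_option autoImplicit false

noncomputable section

namespace Fermat.Agent.DS

open UpperHalfPlane ModularCurve AlgebraicCurve Fermat.Agent.S24 Fermat.Agent.G
open scoped MatrixGroups Manifold ModularForm Real

/-- a level datum over `ℂ`. -/
abbrev DscLevelC : Type := DscLevel ℂ (RingHom.id ℂ)

variable (L : DscLevelC)

/-- `H (γ τ) = χ γ * H τ` for all `γ ∈ L.Γ`. -/
def DsckmMult (χ : L.Γ →* ℂˣ) (H : HolRing) : Prop :=
  ∀ γ : L.Γ, ((γ : SL(2, ℤ))⁻¹ • H : HolRing) = HolRing.C ((χ γ : ℂˣ) : ℂ) * H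

/-- `x` is (the expansion of) a holomorphic function on `ℍ` which has a holomorphic `n`-th root with
multiplier `χ`. -/
def DsckmRoot (n : ℕ) (χ : L.Γ →* ℂˣ) (x : L.F) : Prop :=
  ∃ H : HolRing, HasCuspExp 1 ((H ^ n : HolRing) : ℍ → ℂ) ((x : L.F) : LaurentSeries ℂ) ∧
    DsckmMult L χ H

/-- the class of `x` modulo `n`-th powers contains an element with an `n`-th root of multiplier
`χ`. -/
def DsckmRel (n : ℕ) (χ : L.Γ →* ℂˣ) (x : L.F) : Prop :=
  ∃ b : L.F, b ≠ 0 ∧ DsckmRoot L n χ (x * b ^ n)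

/-- `χ` kills every parabolic and every elliptic element of `L.Γ` (and `±1`). -/
def DsckmPE (χ : L.Γ →* ℂˣ) : Prop :=
  ∀ γ : L.Γ, (((γ : SL(2, ℤ)) : Matrix (Fin 2) (Fin 2) ℤ).trace) ^ 2 ≤ 4 → χ γ = 1

/-- every `SL(2, ℤ)`-translate of `G` has an expansion (finitely many negative terms) at `i∞`. -/
def DsckmCusp (G : HolRing) : Prop :=
  ∀ g : SL(2, ℤ), ∃ (h : ℕ) (_ : NeZero h) (S : LaurentSeries ℂ),
    HasCuspExp h ((g • G : HolRing) : ℍ → ℂ) S

/-- over `ℂ` the coefficient map of the level datum is the identity. -/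
theorem dsckm_coeffMap_id (S : LaurentSeries ℂ) : coeffMap (RingHom.id ℂ) S = S := coeffMap_id S

/-- the bridge, with the identity coefficient map removed. -/
theorem dsckm_hasCuspExp_toHol (x : L.R) :
    HasCuspExp 1 (L.toHol x : ℍ → ℂ) (((x : L.F)) : LaurentSeries ℂ) := by
  have h := L.hasCuspExp x
  rwa [dsckm_coeffMap_id] at h

/-- expansions of the conjugates, with the identity coefficient map removed. -/
theorem dsckm_hasCuspExp_cuspHom (g : SL(2, ℤ)) (x : L.R) :
    HasCuspExp L.h ((g • L.toHol x : HolRing) : ℍ → ℂ) (dsclCuspHom L g x) := by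
  have h := dscl_hasCuspExp_cuspHom L g x
  rwa [dsckm_coeffMap_id] at h

end Fermat.Agent.DS
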