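/-
Program DS / package (C) / row C6 (THETA), sub-package Kum, file Alg : GENERIC port of
`Fermat/Agent/G/Kum/Alg.lean` (row KUM-ALG, helper7) over a level datum `L : DscLevelC`:
elementary algebra of multipliers and of the relation `DsckmRel` in the domain `HolRing`.

Key trick everywhere: `x = a / s` with `a, s ∈ L.R`; `HasCuspExp 1 G x` iff
`toHol s * G = toHol a` (expansions multiply, `HasCuspExp.eq_of_eq`).
Auxiliary lemmas are prefixed `dsckma_`.
-/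
import Fermat.Agent.DS.C.Th.Kum.Defs

set_option autoImplicit false
set_option linter.unusedSectionVars false
set_option linter.unusedVariables false

noncomputable section

namespace Fermat.Agent.DS

open UpperHalfPlane ModularCurve AlgebraicCurve Fermat.Agent.S24 Fermat.Agent.G IntermediateField
open scoped MatrixGroups Manifold ModularForm Real

variable {L : DscLevelC} {n : ℕ}

/-! ### auxiliary lemmas -/

theorem dsckma_coeffMap_iota (S : LaurentSeries ℂ) : coeffMap (RingHom.id ℂ) S = S :=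
  coeffMap_id S

/-- the expansion of `L.toHol x`, without the identity `coeffMap`. -/
theorem dsckma_hasCuspExp_toHol (x : L.R) :
    HasCuspExp 1 (L.toHol x : ℍ → ℂ) (((x : L.F)) : LaurentSeries ℂ) := by
  have h := L.hasCuspExp x
  rwa [dsckma_coeffMap_iota] at h

theorem dsckma_toHol_ne_zero {s : L.R} (hs : s ≠ 0) : L.toHol s ≠ 0 := fun h =>
  hs ((map_eq_zero_iff (L.toHol) (dscl_toHol_injective L)).mp h)

/-- every element of `F_ℂ` is a quotient `a / s` of elements of `L.R`. -/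
theorem dsckma_exists_frac (x : L.F) :
    ∃ a s : L.R, s ≠ 0 ∧ x * (s : L.F) = (a : L.F) := by
  have := L.frac
  obtain ⟨⟨a, s⟩, h⟩ := IsLocalization.surj (nonZeroDivisors (L.R)) x
  exact ⟨a, s, nonZeroDivisors.ne_zero s.2, h⟩

theorem dsckma_coe_mul (x y : L.F) :
    ((x * y : L.F) : LaurentSeries ℂ) = (x : LaurentSeries ℂ) * (y : LaurentSeries ℂ) := rfl

theorem dsckma_coe_pow (x : L.F) (m : ℕ) :
    ((x ^ m : L.F) : LaurentSeries ℂ) = (x : LaurentSeries ℂ) ^ m := rfl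

theorem dsckma_hol_coe_mul (G₁ G₂ : HolRing) :
    ((G₁ * G₂ : HolRing) : ℍ → ℂ) = (G₁ : ℍ → ℂ) * (G₂ : ℍ → ℂ) := rfl

theorem dsckma_hasCuspExp_pow {h : ℕ} [NeZero h] {G : HolRing} {S : LaurentSeries ℂ}
    (hG : HasCuspExp h (G : ℍ → ℂ) S) (m : ℕ) :
    HasCuspExp h ((G ^ m : HolRing) : ℍ → ℂ) (S ^ m) := by
  induction m with
  | zero =>
    rw [pow_zero, pow_zero]
    have h1 : (((1 : HolRing)) : ℍ → ℂ) = fun _ => (1 : ℂ) := rfl
    rw [h1, ← HahnSeries.C_one]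
    exact HasCuspExp.const 1
  | succ m ih =>
    rw [pow_succ, pow_succ, dsckma_hol_coe_mul]
    exact ih.mul hG

/-- `G` is the function of `x`, `x s = a` ⟹ `G * toHol s = toHol a`. -/
theorem dsckma_mul_toHol {x : L.F} {G : HolRing}
    (h : HasCuspExp 1 (G : ℍ → ℂ) ((x : L.F) : LaurentSeries ℂ)) {a s : L.R}
    (hxs : x * (s : L.F) = (a : L.F)) : G * L.toHol s = L.toHol a := by
  apply Subtype.ext
  have h1 : HasCuspExp 1 ((G * L.toHol s : HolRing) : ℍ → ℂ)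
      (((a : L.F)) : LaurentSeries ℂ) := by
    rw [← hxs, dsckma_coe_mul, dsckma_hol_coe_mul]
    exact h.mul (dsckma_hasCuspExp_toHol s)
  exact h1.eq_of_eq (dsckma_hasCuspExp_toHol a)

theorem dsckma_smul_C (g : SL(2, ℤ)) (c : ℂ) : g • HolRing.C c = HolRing.C c := rfl

theorem dsckma_C_injective : Function.Injective (HolRing.C : ℂ → HolRing) := by
  intro a b h
  have := congrArg (fun f : HolRing => (f : ℍ → ℂ) UpperHalfPlane.I) h
  simpa using this

theorem dsckma_mult_one_iff {G : HolRing} :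
    DsckmMult L 1 G ↔ ∀ γ : L.Γ, ((γ : SL(2, ℤ))⁻¹ • G : HolRing) = G := by
  unfold DsckmMult
  refine forall_congr' fun γ => ?_
  have : HolRing.C ((((1 : L.Γ →* ℂˣ) γ : ℂˣ)) : ℂ) = 1 := by
    rw [MonoidHom.one_apply, Units.val_one, map_one]
  rw [this, one_mul]

theorem dsckma_toHol_invariant (x : L.R) : DsckmMult L 1 (L.toHol x) := by
  rw [dsckma_mult_one_iff]
  intro γ
  exact L.inv _ (inv_mem γ.2) x

/-- a nonzero function has a nonzero expansion and conversely. -/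
theorem dsckma_ne_zero_of_exp {h : ℕ} [NeZero h] {G : HolRing} {S : LaurentSeries ℂ}
    (hG : HasCuspExp h (G : ℍ → ℂ) S) (hS : S ≠ 0) : G ≠ 0 := by
  rintro rfl
  exact hS (cuspExp_eq_zero_of_zero hG)

theorem dsckma_coe_ne_zero {x : L.F} (hx : x ≠ 0) : ((x : L.F) : LaurentSeries ℂ) ≠ 0 :=
  fun h => hx (Subtype.ext h)

/-- roots of `X^n - H^n` in the domain `HolRing ⊇ μ_n` are `ζ H`. -/
theorem dsckma_root_of_pow_eq (hn : 0 < n) {A B : HolRing} (h : A ^ n = B ^ n) :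
    ∃ c : ℂ, c ^ n = 1 ∧ A = HolRing.C c * B := by
  haveI : NeZero n := ⟨hn.ne'⟩
  obtain ⟨ζ, hζ⟩ : ∃ ζ : ℂ, IsPrimitiveRoot ζ n :=
    ⟨_, Complex.isPrimitiveRoot_exp n hn.ne'⟩
  have hζ' : IsPrimitiveRoot (HolRing.C ζ) n := hζ.map_of_injective dsckma_C_injective
  have hprod := hζ'.pow_sub_pow_eq_prod_sub_mul A B hn
  rw [h, sub_self] at hprod
  obtain ⟨μ, hμ, hμ0⟩ := Finset.prod_eq_zero_iff.mp hprod.symm
  have hμn : μ ^ n = 1 := (Polynomial.mem_nthRootsFinset hn 1).mp hμ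
  obtain ⟨i, -, rfl⟩ := hζ'.eq_pow_of_pow_eq_one hμn
  refine ⟨ζ ^ i, ?_, ?_⟩
  · have : HolRing.C ((ζ ^ i) ^ n) = HolRing.C 1 := by
      rw [map_pow, map_pow, hμn, map_one]
    exact dsckma_C_injective this
  · rw [map_pow]
    exact sub_eq_zero.mp hμ0

/-! ### Row KUM-ALG -/

/-- an element of `F_ℂ` which is holomorphic on `ℍ` is `Γ₀(N)`-invariant -/
theorem dsckm_hol_invariant {x : L.F} {G : HolRing}
    (h : HasCuspExp 1 (G : ℍ → ℂ) ((x : L.F) : LaurentSeries ℂ)) : DsckmMult L 1 G := by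
  rw [dsckma_mult_one_iff]
  intro γ
  obtain ⟨a, s, hs, hxs⟩ := dsckma_exists_frac x
  have h1 := dsckma_mul_toHol h hxs
  have h2 : ((γ : SL(2, ℤ))⁻¹ • G : HolRing) * L.toHol s = L.toHol a := by
    have := congrArg (fun f : HolRing => ((γ : SL(2, ℤ))⁻¹ • f : HolRing)) h1
    simp only [smul_mul'] at this
    rwa [L.inv _ (inv_mem γ.2) s,
      L.inv _ (inv_mem γ.2) a] at this
  exact mul_right_cancel₀ (dsckma_toHol_ne_zero hs) (h2.trans h1.symm)

/-- the functions of `L.R` are meromorphic at all cusps (S24 `gfc_hasCuspExp_cuspHom`) -/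
theorem dsckm_cusp_toHol (x : L.R) : DsckmCusp (L.toHol x) := by
  intro g
  exact ⟨L.h, inferInstance, _, dsckm_hasCuspExp_cuspHom L g x⟩

/-- every class modulo `n`-th powers contains a holomorphic element (`x = a / s ↦ a s^(n-1)`) -/
theorem dsckm_exists_hol (hn : 0 < n) (x : L.F) :
    ∃ (b : L.F) (G : HolRing), b ≠ 0 ∧
      HasCuspExp 1 (G : ℍ → ℂ) ((x * b ^ n : L.F) : LaurentSeries ℂ) := by
  obtain ⟨a, s, hs, hxs⟩ := dsckma_exists_frac x
  refine ⟨(s : L.F), L.toHol (a * s ^ (n - 1)), ?_, ?_⟩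
  · exact fun h => hs (Subtype.ext h)
  · have h1 : x * (s : L.F) ^ n = ((a * s ^ (n - 1) : L.R) : L.F) := by
      obtain ⟨m, rfl⟩ : ∃ m, n = m + 1 := ⟨n - 1, by omega⟩
      rw [pow_succ', ← mul_assoc, hxs]
      simp
    rw [h1]
    exact dsckma_hasCuspExp_toHol _

theorem dsckm_cusp_mul {G₁ G₂ : HolRing} (h₁ : DsckmCusp G₁) (h₂ : DsckmCusp G₂) :
    DsckmCusp (G₁ * G₂) := by
  intro g
  obtain ⟨k₁, hk₁, S₁, hS₁⟩ := h₁ g
  obtain ⟨k₂, hk₂, S₂, hS₂⟩ := h₂ g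
  have e1 := hS₁.qExpand k₂
  have e2 := hS₂.qExpand k₁
  rw [mul_comm k₂ k₁] at e2
  refine ⟨k₁ * k₂, inferInstance, qExpand ℂ k₂ S₁ * qExpand ℂ k₁ S₂, ?_⟩
  rw [smul_mul', dsckma_hol_coe_mul]
  exact e1.mul e2

theorem dsckm_cusp_pow {G : HolRing} (h : DsckmCusp G) (m : ℕ) : DsckmCusp (G ^ m) := by
  induction m with
  | zero =>
    intro g
    refine ⟨1, inferInstance, HahnSeries.C 1, ?_⟩
    rw [pow_zero, smul_one]
    exact HasCuspExp.const 1
  | succ m ih =>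
    rw [pow_succ]
    exact dsckm_cusp_mul ih h

theorem dsckm_mult_unique {χ χ' : L.Γ →* ℂˣ} {H : HolRing} (hH : H ≠ 0)
    (h : DsckmMult L χ H) (h' : DsckmMult L χ' H) : χ = χ' := by
  ext γ
  have h1 : HolRing.C ((χ γ : ℂˣ) : ℂ) * H = HolRing.C ((χ' γ : ℂˣ) : ℂ) * H :=
    (h γ).symm.trans (h' γ)
  exact dsckma_C_injective (mul_right_cancel₀ hH h1)

/-- the multiplier of an `n`-th root of an invariant function (`HolRing` is a domain) -/
theorem dsckm_exists_mult (hn : 0 < n) (H : HolRing) (hH : H ≠ 0) (hinv : DsckmMult L 1 (H ^ n)) :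
    ∃ χ : L.Γ →* ℂˣ, DsckmMult L χ H := by
  classical
  rw [dsckma_mult_one_iff] at hinv
  have hex : ∀ γ : L.Γ, ∃ c : ℂ, c ^ n = 1 ∧
      ((γ : SL(2, ℤ))⁻¹ • H : HolRing) = HolRing.C c * H := by
    intro γ
    apply dsckma_root_of_pow_eq hn
    rw [← smul_pow', hinv γ]
  choose c hc1 hc using hex
  have hc0 : ∀ γ, c γ ≠ 0 := by
    intro γ h0
    have := hc1 γ
    rw [h0, zero_pow hn.ne'] at this
    exact zero_ne_one this
  have huniq : ∀ {a b : ℂ}, HolRing.C a * H = HolRing.C b * H → a = b := fun {a b} h =>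
    dsckma_C_injective (mul_right_cancel₀ hH h)
  have hone : c 1 = 1 := by
    apply huniq
    rw [← hc 1, map_one, one_mul]
    simp
  have hmul : ∀ γ δ : L.Γ, c (γ * δ) = c γ * c δ := by
    intro γ δ
    apply huniq
    rw [← hc (γ * δ)]
    have e : (((γ * δ : L.Γ) : SL(2, ℤ)))⁻¹ = ((δ : SL(2, ℤ)))⁻¹ * ((γ : SL(2, ℤ)))⁻¹ := by
      rw [Subgroup.coe_mul, mul_inv_rev]
    rw [e, mul_smul, hc γ, smul_mul', dsckma_smul_C, hc δ, map_mul]
    ring
  refine ⟨{ toFun := fun γ => Units.mk0 (c γ) (hc0 γ)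
            map_one' := Units.ext hone
            map_mul' := fun γ δ => Units.ext (hmul γ δ) }, ?_⟩
  intro γ
  exact hc γ

theorem dsckm_mult_mul {χ₁ χ₂ : L.Γ →* ℂˣ} {H₁ H₂ : HolRing}
    (h₁ : DsckmMult L χ₁ H₁) (h₂ : DsckmMult L χ₂ H₂) : DsckmMult L (χ₁ * χ₂) (H₁ * H₂) := by
  intro γ
  rw [smul_mul', h₁ γ, h₂ γ, MonoidHom.mul_apply, Units.val_mul, map_mul]
  ring

theorem dsckm_mult_pow {χ : L.Γ →* ℂˣ} {H : HolRing} (h : DsckmMult L χ H) (m : ℕ) :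
    DsckmMult L (χ ^ m) (H ^ m) := by
  intro γ
  rw [smul_pow', h γ, MonoidHom.pow_apply, Units.val_pow_eq_pow_val, map_pow, mul_pow]

theorem dsckm_rel_mul {χ₁ χ₂ : L.Γ →* ℂˣ} {x₁ x₂ : L.F}
    (h₁ : DsckmRel L n χ₁ x₁) (h₂ : DsckmRel L n χ₂ x₂) : DsckmRel L n (χ₁ * χ₂) (x₁ * x₂) := by
  obtain ⟨b₁, hb₁, H₁, hH₁, hm₁⟩ := h₁
  obtain ⟨b₂, hb₂, H₂, hH₂, hm₂⟩ := h₂
  refine ⟨b₁ * b₂, mul_ne_zero hb₁ hb₂, H₁ * H₂, ?_, dsckm_mult_mul hm₁ hm₂⟩
  have e : x₁ * x₂ * (b₁ * b₂) ^ n = (x₁ * b₁ ^ n) * (x₂ * b₂ ^ n) := by ring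
  rw [e, dsckma_coe_mul, mul_pow, dsckma_hol_coe_mul]
  exact hH₁.mul hH₂

theorem dsckm_rel_pow_self (hn : 0 < n) {g : L.F} (hg : g ≠ 0) : DsckmRel L n 1 (g ^ n) := by
  obtain ⟨a, s, hs, hxs⟩ := dsckma_exists_frac g
  refine ⟨(s : L.F), fun h => hs (Subtype.ext h), L.toHol a, ?_, dsckma_toHol_invariant a⟩
  have e : g ^ n * (s : L.F) ^ n = ((a ^ n : L.R) : L.F) := by
    rw [← mul_pow, hxs]
    simp
  rw [e, ← map_pow]
  exact dsckma_hasCuspExp_toHol _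

theorem dsckm_rel_of_gdRel {χ : L.Γ →* ℂˣ} {x y : L.F}
    (h : DsckmRel L n χ x) (hxy : GdRel n x y) : DsckmRel L n χ y := by
  obtain ⟨b, hb, hroot⟩ := h
  obtain ⟨g, hg, rfl⟩ := hxy
  refine ⟨b / g, div_ne_zero hb hg, ?_⟩
  have e : x * g ^ n * (b / g) ^ n = x * b ^ n := by
    rw [div_pow]
    field_simp
  rwa [e]

theorem dsckm_rel_char_pow (hn : 0 < n) {χ : L.Γ →* ℂˣ} {x : L.F} (hx : x ≠ 0)
    (h : DsckmRel L n χ x) (γ : L.Γ) : χ γ ^ n = 1 := by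
  obtain ⟨b, hb, H, hH, hm⟩ := h
  have h1 : DsckmMult L 1 (H ^ n) := dsckm_hol_invariant hH
  have h2 : DsckmMult L (χ ^ n) (H ^ n) := dsckm_mult_pow hm n
  have h3 : H ^ n ≠ 0 :=
    dsckma_ne_zero_of_exp hH (dsckma_coe_ne_zero (mul_ne_zero hx (pow_ne_zero n hb)))
  have h4 : χ ^ n = 1 := dsckm_mult_unique h3 h2 h1
  have := congrArg (fun ψ : L.Γ →* ℂˣ => ψ γ) h4
  simpa using this

theorem dsckm_rel_char_unique (hn : 0 < n) {χ χ' : L.Γ →* ℂˣ} {x : L.F} (hx : x ≠ 0)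
    (h : DsckmRel L n χ x) (h' : DsckmRel L n χ' x) : χ = χ' := by
  obtain ⟨b, hb, H, hH, hm⟩ := h
  obtain ⟨b', hb', H', hH', hm'⟩ := h'
  have hHne : H ≠ 0 := by
    have : H ^ n ≠ 0 :=
      dsckma_ne_zero_of_exp hH (dsckma_coe_ne_zero (mul_ne_zero hx (pow_ne_zero n hb)))
    exact fun h0 => this (by rw [h0, zero_pow hn.ne'])
  obtain ⟨a, s, hs, hxs⟩ := dsckma_exists_frac (b' / b)
  have ha : a ≠ 0 := by
    rintro rfl
    have h0 : b' / b * (s : L.F) = 0 := by rw [hxs]; rfl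
    rcases mul_eq_zero.mp h0 with h1 | h1
    · exact div_ne_zero hb' hb h1
    · exact hs (Subtype.ext h1)
  -- `H'^n toHol(s)^n = H^n toHol(a)^n`
  have key : (H' * L.toHol s) ^ n = (H * L.toHol a) ^ n := by
    apply Subtype.ext
    have e1 : HasCuspExp 1 (((H' * L.toHol s) ^ n : HolRing) : ℍ → ℂ)
        (((x * b' ^ n : L.F) : LaurentSeries ℂ) *
          (((s : L.F)) : LaurentSeries ℂ) ^ n) := by
      rw [mul_pow, dsckma_hol_coe_mul]
      exact hH'.mul (dsckma_hasCuspExp_pow (dsckma_hasCuspExp_toHol s) n)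
    have e2 : HasCuspExp 1 (((H * L.toHol a) ^ n : HolRing) : ℍ → ℂ)
        (((x * b ^ n : L.F) : LaurentSeries ℂ) *
          (((a : L.F)) : LaurentSeries ℂ) ^ n) := by
      rw [mul_pow, dsckma_hol_coe_mul]
      exact hH.mul (dsckma_hasCuspExp_pow (dsckma_hasCuspExp_toHol a) n)
    have e3 : ((x * b' ^ n : L.F) : LaurentSeries ℂ) *
          (((s : L.F)) : LaurentSeries ℂ) ^ n =
        ((x * b ^ n : L.F) : LaurentSeries ℂ) *
          (((a : L.F)) : LaurentSeries ℂ) ^ n := by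
      rw [← dsckma_coe_pow, ← dsckma_coe_pow, ← dsckma_coe_mul, ← dsckma_coe_mul]
      congr 1
      rw [← hxs, mul_pow, div_pow]
      field_simp
    rw [e3] at e1
    exact e1.eq_of_eq e2
  obtain ⟨c, hc1, hc⟩ := dsckma_root_of_pow_eq hn key
  have hc0 : c ≠ 0 := by
    rintro rfl
    rw [zero_pow hn.ne'] at hc1
    exact zero_ne_one hc1
  -- multipliers of both sides
  have m1 : DsckmMult L χ' (H' * L.toHol s) := by
    have e : χ' * 1 = χ' := by ext γ; simp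
    have := dsckm_mult_mul hm' (dsckma_toHol_invariant s)
    rwa [e] at this
  have m2 : DsckmMult L χ (HolRing.C c * (H * L.toHol a)) := by
    intro γ
    have e : χ * 1 = χ := by ext γ; simp
    have h1 := dsckm_mult_mul hm (dsckma_toHol_invariant a) γ
    rw [e] at h1
    rw [smul_mul', dsckma_smul_C, h1]
    ring
  rw [← hc] at m2
  have hne : H' * L.toHol s ≠ 0 := by
    rw [hc]
    exact mul_ne_zero (fun h0 => hc0 (dsckma_C_injective (by rw [h0, map_zero])))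
      (mul_ne_zero hHne (dsckma_toHol_ne_zero ha))
  exact dsckm_mult_unique hne m2 m1

/-- change of level (for the `p`-adic compatibility of S30): the same root serves `x^d` at level
`n d`. -/
theorem dsckm_rel_pow_level {χ : L.Γ →* ℂˣ} {x : L.F} (d : ℕ)
    (h : DsckmRel L n χ x) : DsckmRel L (n * d) χ (x ^ d) := by
  obtain ⟨b, hb, H, hH, hm⟩ := h
  refine ⟨b, hb, H, ?_, hm⟩
  have e : x ^ d * b ^ (n * d) = (x * b ^ n) ^ d := by
    rw [mul_pow, ← pow_mul]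
  rw [e, pow_mul, dsckma_coe_pow]
  exact dsckma_hasCuspExp_pow hH d

end Fermat.Agent.DS
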