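/-
Program DS (S48), package (C), row C6 (THETA) — generic Kummer package over a level datum
`L : DscLevelC` (helper17's `Lv/`), row KUM-PEREXP: periodic holomorphic functions of moderate growth.
(Generic port of `G/Kum/PerExp.lean` of helper8; helper13.)

* `dsckm_T_mem`, `dsckmp_conj_T_mem` : `T ∈ L.Γ` and `g⁻¹ T^h g ∈ L.Γ` (`h = L.h` the common cusp
  width), from the separation axiom of the level datum.
* `dsckm_cusp_of_root` : an `n`-th root with a multiplier of order dividing `n` is meromorphic at the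
  cusps as soon as its `n`-th power is.
* `dsckm_hol_cusp` : an element `x = a / s` of `L.F` which is holomorphic on `ℍ` is meromorphic at all
  cusps.
-/
import Mathlib
import Fermat.Agent.DS.C.Th.Kum.Defs
import Fermat.Agent.G.Kum.PerExpBase
import Fermat.Agent.G.Kum.PerExp

set_option autoImplicit false

noncomputable section

namespace Fermat.Agent.DS

open UpperHalfPlane ModularCurve AlgebraicCurve CongruenceSubgroup Fermat.Agent.S24 Fermat.Agent.G
open scoped MatrixGroups Manifold ModularForm Real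

/-- a function with an expansion in `exp(2πiτ/h)` is `h`-periodic. -/
theorem dsckmp_periodic_of_hasCuspExp {h : ℕ} [NeZero h] {f : ℍ → ℂ} {S : LaurentSeries ℂ}
    (hS : HasCuspExp h f S) (τ : ℍ) : f ((h : ℝ) +ᵥ τ) = f τ := by
  rw [cuspExp_iff] at hS
  have h1 := hS ((h : ℝ) +ᵥ τ)
  have h2 := hS τ
  have hh : (h : ℂ) ≠ 0 := Nat.cast_ne_zero.2 (NeZero.ne h)
  have e : Function.Periodic.qParam (h : ℝ) (((h : ℝ) +ᵥ τ : ℍ) : ℂ) =
      Function.Periodic.qParam (h : ℝ) (τ : ℂ) := by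
    rw [UpperHalfPlane.coe_vadd, Function.Periodic.qParam, Function.Periodic.qParam]
    have e1 : 2 * (π : ℂ) * Complex.I * (((h : ℝ) : ℂ) + (τ : ℂ)) / ((h : ℝ) : ℂ) =
        2 * (π : ℂ) * Complex.I * (τ : ℂ) / ((h : ℝ) : ℂ) + 2 * π * Complex.I := by
      push_cast
      field_simp
      ring
    rw [e1, Complex.exp_add, Complex.exp_two_pi_mul_I, mul_one]
  rw [e] at h1
  exact h1.unique h2

/-- `T^k • F = F` for a `k`-periodic holomorphic function. -/
theorem dsckmp_T_zpow_smul {k : ℕ} {F : HolRing}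
    (hF : ∀ τ : ℍ, (F : ℍ → ℂ) ((k : ℝ) +ᵥ τ) = (F : ℍ → ℂ) τ) :
    (ModularGroup.T ^ (k : ℤ))⁻¹ • F = F := by
  apply Subtype.ext
  funext τ
  rw [HolRing.inv_smul_apply, UpperHalfPlane.modular_T_zpow_smul]
  have := hF τ
  push_cast
  exact this

variable (L : DscLevelC)

/-- `g⁻¹ T^h g ∈ L.Γ` (`h = L.h` the common cusp width). -/
theorem dsckmp_conj_T_mem (g : SL(2, ℤ)) :
    g⁻¹ * ModularGroup.T ^ (L.h : ℤ) * g ∈ L.Γ := by
  have hmem : (g⁻¹ * ModularGroup.T ^ (L.h : ℤ) * g)⁻¹ ∈ L.Γ := by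
    apply L.sep
    intro x
    have h1 : (g⁻¹ * ModularGroup.T ^ (L.h : ℤ) * g)⁻¹ =
        g⁻¹ * (ModularGroup.T ^ (L.h : ℤ))⁻¹ * g := by group
    rw [h1, mul_smul, mul_smul,
      dsckmp_T_zpow_smul (dsckmp_periodic_of_hasCuspExp (dsckm_hasCuspExp_cuspHom L g x)),
      inv_smul_smul]
  simpa using inv_mem hmem

/-- `T ∈ L.Γ`. -/
theorem dsckm_T_mem : ModularGroup.T ∈ L.Γ := by
  have hmem : (ModularGroup.T ^ ((1 : ℕ) : ℤ))⁻¹ ∈ L.Γ := by
    apply L.sep
    intro x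
    exact dsckmp_T_zpow_smul (dsckmp_periodic_of_hasCuspExp (dsckm_hasCuspExp_toHol L x))
  simpa using inv_mem hmem

variable {L}

variable {n : ℕ}

/-- a function with multiplier of order dividing `n` is `N n`-periodic after any translation. -/
theorem dsckmp_periodic {χ : L.Γ →* ℂˣ} {H : HolRing} (hH : DsckmMult L χ H) (g : SL(2, ℤ))
    (hχ : ∀ γ : L.Γ, χ γ ^ n = 1) (τ : ℍ) :
    ((g • H : HolRing) : ℍ → ℂ) (((L.h * n : ℕ) : ℝ) +ᵥ τ) = ((g • H : HolRing) : ℍ → ℂ) τ := by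
  let δ : L.Γ := ⟨g⁻¹ * ModularGroup.T ^ (L.h : ℤ) * g, dsckmp_conj_T_mem L g⟩
  have h1 : (((L.h * n : ℕ) : ℝ) +ᵥ τ : ℍ) = ModularGroup.T ^ ((L.h * n : ℕ) : ℤ) • τ := by
    rw [UpperHalfPlane.modular_T_zpow_smul]
    push_cast
    rfl
  rw [h1, HolRing.smul_apply, HolRing.smul_apply]
  have h2 : g⁻¹ • (ModularGroup.T ^ ((L.h * n : ℕ) : ℤ) • τ) =
      (((δ ^ n : L.Γ) : SL(2, ℤ))) • (g⁻¹ • τ) := by
    rw [← mul_smul, ← mul_smul]
    congr 1
    have h3 : ((δ ^ n : L.Γ) : SL(2, ℤ)) =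
        g⁻¹ * ModularGroup.T ^ ((L.h * n : ℕ) : ℤ) * g := by
      rw [Subgroup.coe_pow]
      show (g⁻¹ * ModularGroup.T ^ (L.h : ℤ) * g) ^ n = _
      have h4 : g⁻¹ * ModularGroup.T ^ (L.h : ℤ) * g =
          g⁻¹ * ModularGroup.T ^ (L.h : ℤ) * (g⁻¹)⁻¹ := by rw [inv_inv]
      rw [h4, conj_pow, inv_inv, ← zpow_natCast, ← zpow_mul]
      push_cast
      rfl
    rw [h3, mul_assoc, mul_inv_cancel, mul_one]
  rw [h2]
  have h3 := hH (δ ^ n)
  have h4 := congrArg (fun F : HolRing => (F : ℍ → ℂ) (g⁻¹ • τ)) h3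
  simp only [HolRing.inv_smul_apply] at h4
  rw [h4]
  simp [map_pow, hχ δ]

/-- an `n`-th root with a multiplier of order dividing `n` is meromorphic at the cusps as soon as
its `n`-th power is. -/
theorem dsckm_cusp_of_root (hn : 0 < n) {χ : L.Γ →* ℂˣ} (hχ : ∀ γ : L.Γ, χ γ ^ n = 1)
    {H : HolRing} (hH : DsckmMult L χ H) (hc : DsckmCusp (H ^ n)) : DsckmCusp H := by
  intro g
  obtain ⟨h₁, hne₁, S₁, hS₁⟩ := hc g
  have hNn : NeZero (L.h * n) := ⟨Nat.mul_ne_zero (NeZero.ne L.h) hn.ne'⟩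
  set M : ℕ := (-S₁.order).toNat with hM
  refine ⟨L.h * n, hNn, ?_⟩
  apply gkm_hasCuspExp_of_bound (L.h * n) (g • H) (dsckmp_periodic hH g hχ) (M * L.h)
  rw [gkmp_bdd_iff]
  -- the bound for the `n`-th power
  have hpow : ((g • (H ^ n) : HolRing) : ℍ → ℂ) = fun τ => ((g • H : HolRing) : ℍ → ℂ) τ ^ n := by
    rw [smul_pow']
    rfl
  have hb : IsBoundedAtImInfty (((g • (H ^ n) : HolRing) : ℍ → ℂ) *
      fun τ : ℍ => Function.Periodic.qParam (h₁ : ℝ) (τ : ℂ) ^ (M : ℤ)) := by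
    refine (hS₁.mul (gkmp_hasCuspExp_qpow h₁ (M : ℤ))).isBoundedAtImInfty fun m hm => ?_
    have h1 : m = (m - M) + M := by ring
    rw [h1, HahnSeries.coeff_mul_single_add, mul_one]
    apply HahnSeries.coeff_eq_zero_of_lt_order
    omega
  rw [isBoundedAtImInfty_iff] at hb
  obtain ⟨C, A, hCA⟩ := hb
  refine ⟨max C 1, A, fun z hz => ?_⟩
  have h1 := hCA z hz
  rw [hpow] at h1
  simp only [Pi.mul_apply, norm_mul, norm_pow, zpow_natCast] at h1
  rw [Function.Periodic.norm_qParam, UpperHalfPlane.coe_im] at h1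
  set x : ℝ := ‖((g • H : HolRing) : ℍ → ℂ) z‖ *
    Real.exp (-2 * π * ((M * L.h : ℕ) : ℝ) * im z / ((L.h * n : ℕ) : ℝ)) with hx
  have hx0 : 0 ≤ x := mul_nonneg (norm_nonneg _) (Real.exp_pos _).le
  have hy : 0 < im z := z.im_pos
  have hN0 : (0 : ℝ) < (L.h : ℝ) := by exact_mod_cast Nat.pos_of_ne_zero (NeZero.ne L.h)
  have hn0 : (0 : ℝ) < (n : ℝ) := by exact_mod_cast hn
  have hh1 : (1 : ℝ) ≤ (h₁ : ℝ) := by exact_mod_cast Nat.one_le_iff_ne_zero.2 (NeZero.ne h₁)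
  have hxn : x ^ n ≤ C := by
    refine le_trans ?_ h1
    rw [hx, mul_pow, ← Real.exp_nat_mul, ← Real.exp_nat_mul]
    refine mul_le_mul_of_nonneg_left ?_ (pow_nonneg (norm_nonneg _) _)
    rw [Real.exp_le_exp]
    have e1 : (n : ℝ) * (-2 * π * ((M * L.h : ℕ) : ℝ) * im z / ((L.h * n : ℕ) : ℝ)) =
        -2 * π * M * im z := by
      push_cast
      field_simp
    rw [e1]
    have e2 : (M : ℝ) * (-2 * π * im z / (h₁ : ℝ)) = -(2 * π * M * im z) / h₁ := by ring
    rw [e2]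
    have hpos : 0 ≤ 2 * π * M * im z := by positivity
    rw [neg_div, show -2 * π * (M : ℝ) * im z = -(2 * π * M * im z) by ring, neg_le_neg_iff]
    exact div_le_self hpos hh1
  by_contra hlt
  push Not at hlt
  have h1x : 1 ≤ x := le_trans (le_max_right C 1) hlt.le
  have h2 : x ≤ x ^ n := le_self_pow₀ h1x hn.ne'
  have h3 : C < x := lt_of_le_of_lt (le_max_left C 1) hlt
  linarith


theorem dsckmp_coeffMap_id (S : LaurentSeries ℂ) : coeffMap (RingHom.id ℂ) S = S :=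
  dsckm_coeffMap_id S

/-- `x = a / s` holomorphic, as an identity of holomorphic functions. -/
theorem dsckmp_toHol_mul {x : L.F} {G : HolRing}
    (h : HasCuspExp 1 (G : ℍ → ℂ) ((x : L.F) : LaurentSeries ℂ))
    (a s : L.R) (hx : (s : L.F) * x = (a : L.F)) :
    L.toHol s * G = L.toHol a := by
  apply Subtype.ext
  have h1 := (L.hasCuspExp s).mul h
  have h2 := L.hasCuspExp a
  rw [dsckmp_coeffMap_id] at h1 h2
  have h3 : (((s : L.F)) : LaurentSeries ℂ) * ((x : L.F) : LaurentSeries ℂ) =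
      (((a : L.F)) : LaurentSeries ℂ) := by
    rw [← hx]
    rfl
  rw [h3] at h1
  exact h1.eq_of_eq h2

/-- an element of `F_ℂ` which is holomorphic on `ℍ` is `Γ₀(N)`-invariant. -/
theorem dsckmp_hol_invariant {x : L.F} {G : HolRing}
    (h : HasCuspExp 1 (G : ℍ → ℂ) ((x : L.F) : LaurentSeries ℂ)) : DsckmMult L 1 G := by
  have := L.frac
  obtain ⟨a, s, hs, hx⟩ := IsFractionRing.div_surjective (L.R) x
  have hs0 : s ≠ 0 := nonZeroDivisors.ne_zero hs
  have hs0' : algebraMap (L.R) (L.F) s ≠ 0 := by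
    intro h0
    exact hs0 ((map_eq_zero_iff _ (IsFractionRing.injective (L.R) (L.F))).1 h0)
  have hx' : (s : L.F) * x = (a : L.F) := by
    rw [← hx]
    show algebraMap (L.R) (L.F) s * _ = algebraMap (L.R) (L.F) a
    field_simp
  have hmul := dsckmp_toHol_mul h a s hx'
  have hts : L.toHol s ≠ 0 := fun h0 =>
    hs0 ((map_eq_zero_iff _ (dscl_toHol_injective L)).1 h0)
  intro γ
  have hγ : ((γ : SL(2, ℤ)))⁻¹ ∈ L.Γ := inv_mem γ.2
  have h1 := congrArg (fun F : HolRing => ((γ : SL(2, ℤ))⁻¹ • F : HolRing)) hmul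
  simp only [smul_mul', L.inv _ hγ] at h1
  rw [← hmul] at h1
  have h2 := mul_left_cancel₀ hts h1
  rw [h2]
  simp

/-- an element of `F_ℂ` which is holomorphic on `ℍ` is meromorphic at all cusps. -/
theorem dsckm_hol_cusp {x : L.F} {G : HolRing}
    (h : HasCuspExp 1 (G : ℍ → ℂ) ((x : L.F) : LaurentSeries ℂ)) : DsckmCusp G := by
  have hfr := L.frac
  obtain ⟨a, s, hs, hx⟩ := IsFractionRing.div_surjective (L.R) x
  have hs0 : s ≠ 0 := nonZeroDivisors.ne_zero hs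
  have hs0' : algebraMap (L.R) (L.F) s ≠ 0 := by
    intro h0
    exact hs0 ((map_eq_zero_iff _ (IsFractionRing.injective (L.R) (L.F))).1 h0)
  have hx' : (s : L.F) * x = (a : L.F) := by
    rw [← hx]
    show algebraMap (L.R) (L.F) s * _ = algebraMap (L.R) (L.F) a
    field_simp
  have hmul := dsckmp_toHol_mul h a s hx'
  have hinv := dsckmp_hol_invariant h
  intro g
  refine ⟨L.h, inferInstance, ?_⟩
  have hper : ∀ τ : ℍ, ((g • G : HolRing) : ℍ → ℂ) ((L.h : ℝ) +ᵥ τ) =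
      ((g • G : HolRing) : ℍ → ℂ) τ := by
    intro τ
    have := dsckmp_periodic hinv g (n := 1) (by simp) τ
    simpa using this
  -- the expansions of `g • toHol s` and `g • toHol a`
  set T : LaurentSeries ℂ := coeffMap (RingHom.id ℂ) (dsclCuspHom L g s) with hTdef
  set A : LaurentSeries ℂ := coeffMap (RingHom.id ℂ) (dsclCuspHom L g a) with hAdef
  have hT : HasCuspExp L.h ((g • L.toHol s : HolRing) : ℍ → ℂ) T := dscl_hasCuspExp_cuspHom L g s
  have hA : HasCuspExp L.h ((g • L.toHol a : HolRing) : ℍ → ℂ) A := dscl_hasCuspExp_cuspHom L g a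
  have hT0 : T ≠ 0 := by
    rw [hTdef, dsckmp_coeffMap_id]
    intro h0
    exact hs0 ((map_eq_zero_iff _ (dscl_cuspHom_injective L g)).1 h0)
  set m : ℤ := T.order with hm
  set c : ℂ := T.coeff m with hc
  have hc0 : c ≠ 0 := fun h0 => hT0 (HahnSeries.coeff_order_eq_zero.1 h0)
  set M' : ℤ := A.order with hM'
  set K : ℕ := (m - M').toNat with hK
  apply gkm_hasCuspExp_of_bound L.h (g • G) hper K
  rw [gkmp_bdd_iff']
  -- lower bound for `g • toHol s`
  have hu : IsZeroAtImInfty ((((g • L.toHol s : HolRing) : ℍ → ℂ) *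
      fun τ : ℍ => Function.Periodic.qParam (L.h : ℝ) (τ : ℂ) ^ (-m)) + -(fun _ : ℍ => c)) := by
    refine ((hT.mul (gkmp_hasCuspExp_qpow L.h (-m))).add
      (HasCuspExp.const (h := L.h) c).neg).isZeroAtImInfty fun k hk => ?_
    have h1 : k = (k + m) + (-m) := by ring
    rw [HahnSeries.coeff_add, HahnSeries.coeff_neg, h1, HahnSeries.coeff_mul_single_add, mul_one,
      ← h1, HahnSeries.C_apply]
    rcases eq_or_lt_of_le hk with rfl | hlt
    · rw [zero_add, HahnSeries.coeff_single_same, ← hc, add_neg_cancel]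
    · rw [HahnSeries.coeff_single_of_ne hlt.ne, neg_zero, add_zero]
      apply HahnSeries.coeff_eq_zero_of_lt_order
      omega
  rw [isZeroAtImInfty_iff] at hu
  obtain ⟨A₁, hA₁⟩ := hu (‖c‖ / 2) (half_pos (norm_pos_iff.2 hc0))
  -- upper bound for `g • toHol a`
  have hw : IsBoundedAtImInfty (((g • L.toHol a : HolRing) : ℍ → ℂ) *
      fun τ : ℍ => Function.Periodic.qParam (L.h : ℝ) (τ : ℂ) ^ (-M')) := by
    refine (hA.mul (gkmp_hasCuspExp_qpow L.h (-M'))).isBoundedAtImInfty fun k hk => ?_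
    have h1 : k = (k + M') + (-M') := by ring
    rw [h1, HahnSeries.coeff_mul_single_add, mul_one]
    apply HahnSeries.coeff_eq_zero_of_lt_order
    omega
  rw [isBoundedAtImInfty_iff] at hw
  obtain ⟨C₂, A₂, hA₂⟩ := hw
  refine ⟨C₂ / (‖c‖ / 2), max A₁ A₂, fun z hz => ?_⟩
  have hz1 := hA₁ z (le_trans (le_max_left _ _) hz)
  have hz2 := hA₂ z (le_trans (le_max_right _ _) hz)
  set q : ℂ := Function.Periodic.qParam (L.h : ℝ) (z : ℂ) with hq
  have hq0 : q ≠ 0 := Function.Periodic.qParam_ne_zero _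
  set r : ℝ := ‖q‖ with hr
  have hr0 : 0 < r := norm_pos_iff.2 hq0
  have hr1 : r ≤ 1 :=
    (Function.Periodic.norm_qParam_lt_one (cuspExp_pos L.h) z.im_pos).le
  set X : ℝ := ‖((g • G : HolRing) : ℍ → ℂ) z‖ with hX
  set Sn : ℝ := ‖((g • L.toHol s : HolRing) : ℍ → ℂ) z‖ with hSn
  set An : ℝ := ‖((g • L.toHol a : HolRing) : ℍ → ℂ) z‖ with hAn
  have heq : Sn * X = An := by
    have h1 := congrArg (fun F : HolRing => ((g • F : HolRing) : ℍ → ℂ) z) hmul
    simp only [smul_mul'] at h1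
    rw [hSn, hX, hAn, ← norm_mul]
    exact congrArg norm h1
  -- `‖c‖/2 ≤ Sn * r^(-m)`
  have h_s : ‖c‖ / 2 ≤ Sn * r ^ (-m) := by
    simp only [Pi.add_apply, Pi.mul_apply, Pi.neg_apply] at hz1
    have h2 : ‖c‖ ≤ ‖((g • L.toHol s : HolRing) : ℍ → ℂ) z * q ^ (-m)‖ +
        ‖((g • L.toHol s : HolRing) : ℍ → ℂ) z * q ^ (-m) + -c‖ := by
      have := norm_sub_le (((g • L.toHol s : HolRing) : ℍ → ℂ) z * q ^ (-m))
        (((g • L.toHol s : HolRing) : ℍ → ℂ) z * q ^ (-m) + -c)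
      simpa using this
    rw [norm_mul, norm_zpow] at h2
    linarith
  have h_a : An * r ^ (-M') ≤ C₂ := by
    simp only [Pi.mul_apply, norm_mul, norm_zpow] at hz2
    exact hz2
  have hc2 : 0 < ‖c‖ / 2 := half_pos (norm_pos_iff.2 hc0)
  rw [le_div_iff₀ hc2]
  have hX0 : 0 ≤ X := norm_nonneg _
  have hKge : 0 ≤ (K : ℤ) - m + M' := by
    rw [hK]
    have := Int.self_le_toNat (m - M')
    omega
  calc X * r ^ K * (‖c‖ / 2) ≤ X * r ^ K * (Sn * r ^ (-m)) :=
        mul_le_mul_of_nonneg_left h_s (mul_nonneg hX0 (pow_nonneg hr0.le _))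
    _ = (Sn * X) * (r ^ (K : ℤ) * r ^ (-m)) := by rw [zpow_natCast]; ring
    _ = (An * r ^ (-M')) * r ^ ((K : ℤ) - m + M') := by
        rw [heq, ← zpow_add₀ hr0.ne', mul_assoc, ← zpow_add₀ hr0.ne']
        congr 2
        ring
    _ ≤ C₂ * 1 := mul_le_mul h_a (zpow_le_one₀ hr0 hr1 hKge) (zpow_nonneg hr0.le _)
        (le_trans (mul_nonneg (norm_nonneg _) (zpow_nonneg hr0.le _)) h_a)
    _ = C₂ := mul_one _

end Fermat.Agent.DS
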