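/-
Program DS (S48), package (C), row C6 (THETA) — generic Kummer package over a level datum
`L : DscLevelC` (helper17's `Lv/`), row KUM-DIVP: `dsckm_div_point`.
(Generic port of `G/Kum/DivPoint.lean` of helper16; helper13.)

`x ∈ L.F` holomorphic on `ℍ` with a holomorphic `n`-th root `H` of multiplier `χ` (`χ` trivial on the
elliptic and parabolic elements): then `n ∣ ord_v x` at every place `v` of `L.F` over a finite value
`a` of `j`.  The level-free lemmas (`gkdp_trace_sq_le`, `gkdp_taylorDisc_pow_inv_smul`,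
`gkdp_dvd_of_rescale_eq`, `gkdp_pow_smul_fix`) are reused from main's `G/Kum/DivPoint.lean`.
-/
import Mathlib
import Fermat.Agent.DS.C.Th.Kum.Defs
import Fermat.Agent.G.Kum.RamAbs
import Fermat.Agent.G.Kum.DivPoint

set_option autoImplicit false
set_option linter.unusedSectionVars false

noncomputable section

namespace Fermat.Agent.DS

open UpperHalfPlane ModularCurve AlgebraicCurve CongruenceSubgroup Fermat.Agent.S24
  Fermat.Agent.G IntermediateField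
open scoped MatrixGroups Manifold ModularForm Real

variable {L : DscLevelC} {n : ℕ}

/-! ### the Taylor expansion of an element of `F_ℂ` which is holomorphic on `ℍ` -/

/-- `x = a / s` with `a, s ∈ L.R`; if `x` is the holomorphic function `G` then
`toHol s * G = toHol a`. -/
theorem dsckdp_exists_toHol_mul {x : L.F} {G : HolRing}
    (hG : HasCuspExp 1 (G : ℍ → ℂ) ((x : L.F) : LaurentSeries ℂ)) :
    ∃ a s : L.R, s ≠ 0 ∧ x * (s : L.F) = (a : L.F) ∧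
      L.toHol s * G = L.toHol a := by
  have := L.frac
  obtain ⟨⟨a, s⟩, hs⟩ := IsLocalization.surj (nonZeroDivisors (L.R)) x
  have hs0 : (s : L.R) ≠ 0 := nonZeroDivisors.ne_zero s.2
  refine ⟨a, s, hs0, hs, ?_⟩
  have h1 := (L.hasCuspExp (s : L.R)).mul hG
  have h2 := L.hasCuspExp a
  rw [coeffMap_id] at h1 h2
  have h3 : ((((s : L.R) : L.F)) : LaurentSeries ℂ) * ((x : L.F) : LaurentSeries ℂ)
      = (((a : L.F)) : LaurentSeries ℂ) := by
    have := congrArg (fun y : L.F => (y : LaurentSeries ℂ)) hs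
    simp only at this
    rw [mul_comm]
    exact this
  rw [h3] at h1
  exact gfc_bridge_hol_ext h1 h2

/-- the Taylor expansion at `τ₀` of the `g`-translate. -/
theorem dsckdp_pointEmb_of_hasCuspExp (τ₀ : ℍ) (g : SL(2, ℤ)) {x : L.F} {G : HolRing}
    (hG : HasCuspExp 1 (G : ℍ → ℂ) ((x : L.F) : LaurentSeries ℂ)) :
    dsclPointEmb L τ₀ g x = HahnSeries.ofPowerSeries ℤ ℂ (taylorDisc τ₀ (g • G)) := by
  obtain ⟨a, s, hs0, hxs, hmul⟩ := dsckdp_exists_toHol_mul hG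
  have h1 : dsclPointEmb L τ₀ g x * dsclPointEmb L τ₀ g (s : L.F) =
      dsclPointEmb L τ₀ g (a : L.F) := by rw [← map_mul, hxs]
  rw [dsclPointEmb_coe, dsclPointEmb_coe, ← hmul, smul_mul', map_mul, map_mul] at h1
  have hne : HahnSeries.ofPowerSeries ℤ ℂ (taylorDisc τ₀ (g • L.toHol s)) ≠ 0 := by
    rw [← dsclPointEmb_coe]
    intro h0
    apply hs0
    have := (dsclPointEmb L τ₀ g).injective (h0.trans (map_zero _).symm)
    exact_mod_cast this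
  rw [mul_comm] at h1
  exact mul_left_cancel₀ hne h1

/-! ### the core -/

theorem dsckdp_div_of_point (hn : 0 < n) {χ : L.Γ →* ℂˣ} (hχ : DsckmPE L χ) {x : L.F}
    (hx : x ≠ 0) (h : DsckmRoot L n χ x)
    (a : ℂ) (τ₀ : ℍ) (hτ₀ : jFun τ₀ = a)
    (γ₀ : SL(2, ℤ)) (hγ₀ : γ₀ • τ₀ = τ₀) (e : ℕ)
    (he : analyticOrderAt (fun z : ℂ => jFun (ofComplex z) - jFun τ₀) (τ₀ : ℂ) = e)
    (hζ : IsPrimitiveRoot (rotFactor γ₀ τ₀) e)
    (v : Place ℂ (L.F)) (hv : 0 < v.ord (L.jF - algebraMap ℂ (L.F) a)) :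
    (n : ℤ) ∣ v.ord x := by
  classical
  have hfin : Finite (SL(2, ℤ) ⧸ L.Γ) := inferInstance
  let _inst : Fintype (SL(2, ℤ) ⧸ L.Γ) := Fintype.ofFinite _
  have hepos : 0 < e := pos_of_analyticOrderAt_jFun_sub τ₀ e he
  have hζ0 : rotFactor γ₀ τ₀ ≠ 0 := hζ.ne_zero hepos.ne'
  set ζ : ℂˣ := Units.mk0 (rotFactor γ₀ τ₀) hζ0 with hζdef
  have hζval : (ζ : ℂ) = rotFactor γ₀ τ₀ := rfl
  have ht : IsSepGen ℂ (L.jF - algebraMap ℂ (L.F) a) :=
    (dscl_isSepGen_jF L).sub_algebraMap a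
  -- the hypotheses of (RAMABS), as in `gfc_card_places_of_point`
  have hσ : ∀ (q : SL(2, ℤ) ⧸ L.Γ) (f : L.F),
      rotLaurent ζ (dsclPointEmb L τ₀ q.out f) =
        dsclPointEmb L τ₀ ((MulAction.toPerm γ₀⁻¹ : Equiv.Perm (SL(2, ℤ) ⧸ L.Γ)) q).out f := by
    intro q f
    rw [dscl_rotLaurent_pointEmb L τ₀ γ₀ hγ₀ ζ hζval]
    obtain ⟨h, hh, hout⟩ := dscl_exists_out_smul_eq L γ₀⁻¹ q
    show _ = dsclPointEmb L τ₀ (γ₀⁻¹ • q).out f
    rw [hout, dsclPointEmb_mul_of_mem L τ₀ _ h hh]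
  have hcard : Fintype.card (SL(2, ℤ) ⧸ L.Γ) =
      Module.finrank ℂ⟮L.jF - algebraMap ℂ (L.F) a⟯ (L.F) := by
    rw [(dscl_isSepGen_jF L).finrank_sub_algebraMap a, dscl_finrank_jF, Fintype.card_eq_nat_card]
  have hK : ∀ (i j : SL(2, ℤ) ⧸ L.Γ) (c : ℂ),
      dsclPointEmb L τ₀ i.out (algebraMap ℂ (L.F) c) =
        dsclPointEmb L τ₀ j.out (algebraMap ℂ (L.F) c) := by
    intro i j c
    rw [dsclPointEmb_algebraMap, dsclPointEmb_algebraMap]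
  have hKord : ∀ (i : SL(2, ℤ) ⧸ L.Γ) (c : ℂ), c ≠ 0 →
      (dsclPointEmb L τ₀ i.out (algebraMap ℂ (L.F) c)).order = 0 := by
    intro i c hc
    rw [dsclPointEmb_algebraMap, HahnSeries.C_apply]
    apply HahnSeries.order_single
    intro h0
    exact hc h0
  have ht' : ∀ i j : SL(2, ℤ) ⧸ L.Γ,
      dsclPointEmb L τ₀ i.out (L.jF - algebraMap ℂ (L.F) a) =
        dsclPointEmb L τ₀ j.out (L.jF - algebraMap ℂ (L.F) a) := by
    intro i j
    rw [dsclPointEmb_jF_sub, dsclPointEmb_jF_sub]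
  have hord : ∀ i : SL(2, ℤ) ⧸ L.Γ,
      (dsclPointEmb L τ₀ i.out (L.jF - algebraMap ℂ (L.F) a)).order = (e : ℤ) :=
    fun i => dscl_order_pointEmb_jF_sub L τ₀ _ a hτ₀ e he
  have hR : ∀ (f : LaurentSeries ℂ) (m : ℤ),
      (rotLaurent ζ f).coeff m = (rotFactor γ₀ τ₀) ^ m * f.coeff m := by
    intro f m
    rw [rotLaurent_coeff, hζval]
  obtain ⟨κ, hκ1, -, hκ3⟩ := gkm_ram_abstract ht
    (fun q : SL(2, ℤ) ⧸ L.Γ => dsclPointEmb L τ₀ q.out)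
    (dsclPointEmb_out_injective L τ₀) hcard hK hKord ht' e hepos hord (rotFactor γ₀ τ₀) hζ
    (rotLaurent ζ) hR (MulAction.toPerm γ₀⁻¹) hσ
  obtain ⟨q, rfl⟩ := hκ3 v hv
  obtain ⟨H, hH, hmult⟩ := h
  set g : SL(2, ℤ) := q.out with hg
  set s : ℕ := Function.minimalPeriod (MulAction.toPerm γ₀⁻¹ : Equiv.Perm (SL(2, ℤ) ⧸ L.Γ)) q
    with hs
  -- `q` is fixed by `γ₀^(-s)`
  have hq : (γ₀⁻¹) ^ s • q = q := by
    have hper := Function.isPeriodicPt_minimalPeriod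
      (MulAction.toPerm γ₀⁻¹ : Equiv.Perm (SL(2, ℤ) ⧸ L.Γ)) q
    have h1 : ((MulAction.toPerm γ₀⁻¹ : Equiv.Perm (SL(2, ℤ) ⧸ L.Γ)) :
        (SL(2, ℤ) ⧸ L.Γ) → (SL(2, ℤ) ⧸ L.Γ)) = (γ₀⁻¹ • ·) := rfl
    rw [Function.IsPeriodicPt, Function.IsFixedPt, h1, smul_iterate] at hper
    exact hper
  obtain ⟨δ, hδ, hout⟩ := dscl_exists_out_smul_eq L ((γ₀⁻¹) ^ s) q
  rw [hq] at hout
  -- `δ` fixes a point of `ℍ`
  have hfix' : ((γ₀⁻¹) ^ s) • τ₀ = τ₀ := by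
    have h1 : γ₀⁻¹ • τ₀ = τ₀ := by
      conv_lhs => rw [← hγ₀]
      rw [inv_smul_smul]
    exact gkdp_pow_smul_fix γ₀⁻¹ τ₀ h1 s
  have hδeq : (γ₀⁻¹) ^ s * g = g * δ⁻¹ := by
    have : g = (γ₀⁻¹) ^ s * g * δ := hout
    calc (γ₀⁻¹) ^ s * g = (γ₀⁻¹) ^ s * g * δ * δ⁻¹ := by group
      _ = g * δ⁻¹ := by rw [← this]
  have hδfix : δ⁻¹ • (g⁻¹ • τ₀) = g⁻¹ • τ₀ := by
    have : δ⁻¹ = g⁻¹ * (γ₀⁻¹) ^ s * g := by
      rw [mul_assoc, hδeq]; group
    rw [this, mul_smul, mul_smul, smul_inv_smul, hfix']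
  have hδfix2 : δ • (g⁻¹ • τ₀) = g⁻¹ • τ₀ := by
    conv_lhs => rw [← hδfix]
    rw [smul_inv_smul]
  have hχδ : χ ⟨δ, hδ⟩ = 1 := hχ ⟨δ, hδ⟩ (gkdp_trace_sq_le δ _ hδfix2)
  have hδH : δ⁻¹ • H = H := by
    have := hmult ⟨δ, hδ⟩
    rw [hχδ] at this
    simpa using this
  -- the Taylor expansion of `g • H` is rotation invariant
  have hinvH : (γ₀⁻¹) ^ s • (g • H) = g • H := by
    rw [← mul_smul, hδeq, mul_smul, hδH]
  set P : PowerSeries ℂ := taylorDisc τ₀ (g • H) with hP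
  have hresc : PowerSeries.rescale ((rotFactor γ₀ τ₀) ^ s) P = P := by
    rw [hP, ← gkdp_taylorDisc_pow_inv_smul τ₀ γ₀ hγ₀ s, hinvH]
  have hε : dsclPointEmb L τ₀ g x = HahnSeries.ofPowerSeries ℤ ℂ (P ^ n) := by
    rw [dsckdp_pointEmb_of_hasCuspExp τ₀ g hH, smul_pow', map_pow]
  have hεne : dsclPointEmb L τ₀ g x ≠ 0 :=
    (map_ne_zero_iff _ (dsclPointEmb L τ₀ g).injective).mpr hx
  have hPne : P ≠ 0 := by
    intro h0
    apply hεne
    rw [hε, h0, zero_pow hn.ne', map_zero]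
  obtain ⟨k, hk, hdvd⟩ := gkdp_dvd_of_rescale_eq hζ P hPne s hresc
  have hordx : (dsclPointEmb L τ₀ g x).order = ((n * k : ℕ) : ℤ) := by
    rw [hε]
    apply order_ofPowerSeries_of_order_eq
    rw [PowerSeries.order_pow, hk]
    push_cast
    rw [nsmul_eq_mul]
  have hmain := hκ1 q x hx
  rw [hordx] at hmain
  obtain ⟨m, hm⟩ := hdvd
  refine ⟨(m : ℤ), ?_⟩
  have he0 : (e : ℤ) ≠ 0 := by exact_mod_cast hepos.ne'
  apply mul_left_cancel₀ he0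
  rw [← hmain]
  have hm' : ((s : ℤ)) * (k : ℤ) = (e : ℤ) * (m : ℤ) := by exact_mod_cast hm
  push_cast
  calc (n : ℤ) * (k : ℤ) * (s : ℤ) = (n : ℤ) * ((s : ℤ) * (k : ℤ)) := by ring
    _ = (n : ℤ) * ((e : ℤ) * (m : ℤ)) := by rw [hm']
    _ = (e : ℤ) * ((n : ℤ) * (m : ℤ)) := by ring

/-- (DIVP) places over the finite part of the `j`-line. -/
theorem dsckm_div_point (hn : 0 < n) {χ : L.Γ →* ℂˣ} (hχ : DsckmPE L χ) {x : L.F}
    (hx : x ≠ 0) (h : DsckmRoot L n χ x) (v : Place ℂ (L.F))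
    (hv : 0 ≤ v.ord (L.jF)) : (n : ℤ) ∣ v.ord x := by
  obtain ⟨a, ha, -⟩ := (dscl_isSepGen_jF L).existsUnique_ord_sub_pos v hv
  by_cases h0 : a = 0
  · subst h0
    have hτ : jFun ρ = (0 : ℂ) := jFun_ρ
    refine dsckdp_div_of_point hn hχ hx h 0 ρ hτ (ModularGroup.S * ModularGroup.T) ST_smul_ρ 3 ?_
      (isPrimitiveRoot_rotFactor_ST ρ ST_smul_ρ) v ha
    rw [analyticOrderAt_jFun_sub, if_pos jFun_ρ]
    rfl
  by_cases h1 : a = 1728
  · subst h1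
    have hτ : jFun UpperHalfPlane.I = (1728 : ℂ) := jFun_I
    have hζ : IsPrimitiveRoot (rotFactor ModularGroup.S UpperHalfPlane.I) 2 := by
      rw [rotFactor_S _ S_smul_I]
      exact IsPrimitiveRoot.neg_one 0 (by norm_num)
    refine dsckdp_div_of_point hn hχ hx h 1728 UpperHalfPlane.I hτ ModularGroup.S S_smul_I 2 ?_ hζ
      v ha
    have h0' : jFun UpperHalfPlane.I ≠ 0 := by rw [jFun_I]; norm_num
    rw [analyticOrderAt_jFun_sub, if_neg h0', if_pos jFun_I]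
    rfl
  · obtain ⟨τ₀, hτ⟩ := jFun_surjective a
    have h0' : jFun τ₀ ≠ 0 := by
      rw [hτ]
      exact h0
    have h1' : jFun τ₀ ≠ 1728 := by
      rw [hτ]
      exact h1
    have hζ : IsPrimitiveRoot (rotFactor 1 τ₀) 1 := by
      rw [gfc_rotFactor_one]
      exact IsPrimitiveRoot.one
    refine dsckdp_div_of_point hn hχ hx h a τ₀ hτ 1 (one_smul _ _) 1 ?_ hζ v ha
    rw [analyticOrderAt_jFun_sub, if_neg h0', if_neg h1']
    rfl

end Fermat.Agent.DS
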