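/-
Program DS / package (C), row C6 (THETA), generic Kum port (helper22), row KUM-EIS over a level datum
`L : DscLevelC`: the Eisenstein root `H_χ = E_{χ,12} / Δ` for a character `χ` of `L.Γ` killing the
parabolic and elliptic elements.  Holomorphic on `ℍ`, nonzero, multiplier `χ`, meromorphic at all cusps.
The level-free half (`1 / Δ`) is imported from `G/Kum/EisHol.lean`; the Eisenstein series `geisE χ k`
of `G/Eis/Char.lean` is already generic in the group.  `g⁻¹ T^h g ∈ L.Γ` and `T ∈ L.Γ` are helper13's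
`dsckmp_conj_T_mem`, `dsckm_T_mem` (from `L.sep` and the expansions `L.conj`).
-/
import Fermat.Agent.DS.C.Th.Kum.Defs
import Fermat.Agent.DS.C.Th.Kum.PerExp
import Fermat.Agent.G.Kum.EisHol

set_option autoImplicit false

noncomputable section

namespace Fermat.Agent.DS

open UpperHalfPlane ModularCurve CongruenceSubgroup Fermat.Agent.S24 ModularForm Filter Topology
  Function Fermat.Agent.G
open scoped MatrixGroups Manifold ModularForm Real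

local notation "Δ" => ModularForm.discriminant
local notation "𝕢" => Periodic.qParam

/-! ### the Eisenstein series -/

section Eis

variable {L : DscLevelC} (χ : L.Γ →* ℂˣ)

theorem dsckme_chi_of_c_zero (hχ : DsckmPE L χ) (g : L.Γ)
    (hg : ((g : SL(2, ℤ)) : Matrix (Fin 2) (Fin 2) ℤ) 1 0 = 0) : χ g = 1 := by
  apply hχ
  have hdet := Matrix.SpecialLinearGroup.det_coe (g : SL(2, ℤ))
  rw [Matrix.det_fin_two, hg, mul_zero, sub_zero] at hdet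
  rw [Matrix.trace_fin_two]
  rcases Int.eq_one_or_neg_one_of_mul_eq_one' hdet with ⟨h1, h2⟩ | ⟨h1, h2⟩
  · rw [h1, h2]; norm_num
  · rw [h1, h2]; norm_num

theorem dsckme_conj_T_mem (σ : SL(2, ℤ)) :
    σ * ModularGroup.T ^ ((L.h : ℕ) : ℤ) * σ⁻¹ ∈ L.Γ := by
  have h := dsckmp_conj_T_mem L σ⁻¹
  rwa [inv_inv] at h

theorem dsckme_chi_conj_T (hχ : DsckmPE L χ) (σ : SL(2, ℤ)) :
    χ ⟨_, dsckme_conj_T_mem (L := L) σ⟩ = 1 := by
  apply hχ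
  show ((((σ * ModularGroup.T ^ ((L.h : ℕ) : ℤ) * σ⁻¹ : SL(2, ℤ)) :
    Matrix (Fin 2) (Fin 2) ℤ)).trace) ^ 2 ≤ 4
  have h1 : ((σ * ModularGroup.T ^ ((L.h : ℕ) : ℤ) * σ⁻¹ : SL(2, ℤ)) :
      Matrix (Fin 2) (Fin 2) ℤ) =
      (σ : Matrix (Fin 2) (Fin 2) ℤ) * ((ModularGroup.T ^ ((L.h : ℕ) : ℤ) : SL(2, ℤ)) :
        Matrix (Fin 2) (Fin 2) ℤ) * ((σ⁻¹ : SL(2, ℤ)) : Matrix (Fin 2) (Fin 2) ℤ) := by
    simp
  rw [h1, Matrix.trace_mul_cycle]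
  have h2 : ((σ⁻¹ : SL(2, ℤ)) : Matrix (Fin 2) (Fin 2) ℤ) * (σ : Matrix (Fin 2) (Fin 2) ℤ) = 1 := by
    rw [← Matrix.SpecialLinearGroup.coe_mul, inv_mul_cancel, Matrix.SpecialLinearGroup.coe_one]
  rw [h2, one_mul, ModularGroup.coe_T_zpow, Matrix.trace_fin_two]
  norm_num

variable (hχ : DsckmPE L χ) (hu : ∀ γ : L.Γ, ‖((χ γ : ℂˣ) : ℂ)‖ = 1)

/-- the weight of the translate of `E_χ` by `σ` -/
def dsckmeW (σ : SL(2, ℤ)) : (Fin 2 → ℤ) → ℂ := fun v => geisW χ (geisMul v σ⁻¹)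

include hu in
theorem dsckmeW_norm_le (σ : SL(2, ℤ)) (v : Fin 2 → ℤ) : ‖dsckmeW χ σ v‖ ≤ 1 :=
  geisW_norm_le χ hu _

include hχ in
theorem dsckme_T_mem_stab (σ : SL(2, ℤ)) :
    ModularGroup.T ^ ((L.h : ℕ) : ℤ) ∈ geisStab (dsckmeW χ σ) :=
  geis_mem_stab_slash χ (dsckme_chi_of_c_zero χ hχ) σ (L.h : ℤ) (dsckme_conj_T_mem σ)
    (dsckme_chi_conj_T χ hχ σ)

/-- the translate of `E_{χ,12}` by `σ`, as a holomorphic function -/
def dsckmeF (σ : SL(2, ℤ)) : HolRing :=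
  ⟨geisSum 12 (dsckmeW χ σ), geisSum_mdifferentiable (by norm_num) (dsckmeW_norm_le χ hu σ)⟩

theorem dsckmeF_apply (σ : SL(2, ℤ)) (τ : ℍ) :
    (dsckmeF χ hu σ : ℍ → ℂ) τ = geisSum 12 (dsckmeW χ σ) τ := rfl

include hχ in
theorem dsckmeF_periodic (σ : SL(2, ℤ)) (τ : ℍ) :
    (dsckmeF χ hu σ : ℍ → ℂ) (((L.h : ℕ) : ℝ) +ᵥ τ) = (dsckmeF χ hu σ : ℍ → ℂ) τ := by
  have h1 : ((L.h : ℕ) : ℝ) +ᵥ τ = ModularGroup.T ^ ((L.h : ℕ) : ℤ) • τ := by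
    rw [UpperHalfPlane.modular_T_zpow_smul]
    simp
  rw [dsckmeF_apply, dsckmeF_apply, h1, geisSum_smul_of_mem_stab 12 (dsckme_T_mem_stab χ hχ σ),
    geis_denom_T_zpow, one_zpow, one_mul]

include hχ in
theorem dsckmeF_bounded (σ : SL(2, ℤ)) :
    IsBoundedAtImInfty (fun τ : ℍ => (dsckmeF χ hu σ : ℍ → ℂ) τ *
      Complex.exp (2 * π * Complex.I * ((0 : ℕ) : ℂ) * τ / ((L.h : ℕ) : ℂ))) := by
  have h1 : (fun τ : ℍ => (dsckmeF χ hu σ : ℍ → ℂ) τ *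
      Complex.exp (2 * π * Complex.I * ((0 : ℕ) : ℂ) * τ / ((L.h : ℕ) : ℂ))) =
      geisSum 12 (dsckmeW χ σ) := by
    funext τ
    rw [dsckmeF_apply]
    simp
  rw [h1]
  exact geis_isBoundedAtImInfty (by norm_num) (dsckmeW_norm_le χ hu σ) (Nat.pos_of_ne_zero (NeZero.ne L.h))
    (dsckme_T_mem_stab χ hχ σ)

include hχ in
theorem dsckmeF_cuspExp (σ : SL(2, ℤ)) :
    ∃ S : LaurentSeries ℂ, HasCuspExp L.h (dsckmeF χ hu σ : ℍ → ℂ) S :=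
  gkm_hasCuspExp_of_bound L.h (dsckmeF χ hu σ) (dsckmeF_periodic χ hχ hu σ) 0
    (by exact_mod_cast dsckmeF_bounded χ hχ hu σ)

/-- the Eisenstein root -/
def dsckmeH : HolRing := dsckmeF χ hu 1 * gkmeDinv

theorem dsckmeW_one : dsckmeW χ 1 = geisW χ := by
  funext v
  simp [dsckmeW, geisMul_one]

theorem dsckmeH_apply (τ : ℍ) : (dsckmeH χ hu : ℍ → ℂ) τ = geisE χ 12 τ * (Δ τ)⁻¹ := by
  show (dsckmeF χ hu 1 : ℍ → ℂ) τ * (gkmeDinv : ℍ → ℂ) τ = _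
  rw [dsckmeF_apply, dsckmeW_one, gkmeDinv_apply]
  rfl

/-- the translates of `H_χ` -/
theorem dsckmeH_smul_apply (σ : SL(2, ℤ)) (τ : ℍ) :
    (dsckmeH χ hu : ℍ → ℂ) (σ • τ) = (dsckmeF χ hu σ : ℍ → ℂ) τ * (Δ τ)⁻¹ := by
  rw [dsckmeH_apply, dsckmeF_apply, gkme_discriminant_smul]
  unfold geisE
  rw [geisSum_smul]
  have hd : denom σ τ ^ (12 : ℤ) ≠ 0 := zpow_ne_zero _ (denom_ne_zero σ τ)
  rw [mul_inv]
  show denom σ τ ^ (12 : ℤ) * geisSum 12 (dsckmeW χ σ) τ * ((denom σ τ ^ (12 : ℤ))⁻¹ * (Δ τ)⁻¹) = _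
  field_simp

theorem dsckmeH_smul (g : SL(2, ℤ)) : g • dsckmeH χ hu = dsckmeF χ hu g⁻¹ * gkmeDinv := by
  apply Subtype.ext
  funext τ
  rw [HolRing.smul_apply, dsckmeH_smul_apply]
  rfl

include hχ in
theorem dsckmeH_cusp : DsckmCusp (dsckmeH χ hu) := by
  intro g
  obtain ⟨S, hS⟩ := dsckmeF_cuspExp χ hχ hu g⁻¹
  obtain ⟨D, hD⟩ := gkme_Dinv_cuspExp
  refine ⟨L.h, inferInstance, S * qExpand ℂ L.h D, ?_⟩
  rw [dsckmeH_smul]
  have hD' := hD.qExpand L.h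
  rw [one_mul] at hD'
  exact hS.mul hD'

include hχ in
theorem dsckmeH_mult : DsckmMult L χ (dsckmeH χ hu) := by
  intro γ
  apply Subtype.ext
  funext τ
  rw [HolRing.inv_smul_apply]
  show _ = ((χ γ : ℂˣ) : ℂ) * (dsckmeH χ hu : ℍ → ℂ) τ
  rw [dsckmeH_apply, dsckmeH_apply, gkme_discriminant_smul,
    geisE_smul χ (dsckme_chi_of_c_zero χ hχ) 12 γ τ]
  have hd : denom (γ : SL(2, ℤ)) τ ^ (12 : ℤ) ≠ 0 := zpow_ne_zero _ (denom_ne_zero _ τ)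
  rw [mul_inv]
  field_simp

include hχ in
theorem dsckmeH_ne_zero : dsckmeH χ hu ≠ 0 := by
  have hT : ModularGroup.T ^ ((1 : ℕ) : ℤ) ∈ L.Γ := by
    have := dsckm_T_mem L
    simpa using this
  obtain ⟨z, hz⟩ := geisE_ne_zero χ (dsckme_chi_of_c_zero χ hχ) hu (k := 12) (by norm_num)
    (by decide) one_pos hT
  intro h0
  have h1 := congrArg (fun f : HolRing => (f : ℍ → ℂ) z) h0
  simp only [dsckmeH_apply] at h1
  have h2 : ((0 : HolRing) : ℍ → ℂ) z = 0 := rfl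
  rw [h2] at h1
  rcases mul_eq_zero.1 h1 with h3 | h3
  · exact hz h3
  · exact ModularForm.discriminant_ne_zero z (inv_eq_zero.1 h3)

end Eis

/-- (EIS) -/
theorem dsckm_eis_hol {L : DscLevelC} (χ : L.Γ →* ℂˣ) (hχ : DsckmPE L χ)
    (hu : ∀ γ : L.Γ, ‖((χ γ : ℂˣ) : ℂ)‖ = 1) :
    ∃ H : HolRing, H ≠ 0 ∧ DsckmMult L χ H ∧ DsckmCusp H :=
  ⟨dsckmeH χ hu, dsckmeH_ne_zero χ hχ hu, dsckmeH_mult χ hχ hu, dsckmeH_cusp χ hχ hu⟩

end Fermat.Agent.DS
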