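/-
Program DS / package (C), row C6 (THETA), generic Kum port (helper22): (CHAR-FIN) the characters of exponent
`n` of the group `L.Γ` of a level datum form a finite set: `L.Γ` has finite index in `SL(2, ℤ) = ⟨S, T⟩`,
hence is finitely generated (Schreier), and a character of exponent `n` is determined by its values, `n`-th
roots of unity, on finitely many generators.  Generic replacement of main's `gkm_finite_chars`
(which used the finite generation of `Γ₀(N)^ab` from `G/Per/Fg.lean`).
-/
import Fermat.Agent.DS.C.Th.Kum.Defs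

set_option autoImplicit false

noncomputable section

namespace Fermat.Agent.DS

open UpperHalfPlane ModularCurve AlgebraicCurve Fermat.Agent.S24
open scoped MatrixGroups Manifold ModularForm Real

/-- `SL(2, ℤ)` is finitely generated. -/
theorem dsckmfc_fg_SL2Z : Group.FG SL(2, ℤ) := by
  rw [Group.fg_iff]
  exact ⟨{ModularGroup.S, ModularGroup.T}, SpecialLinearGroup.SL2Z_generators,
    Set.toFinite _⟩

/-- a finite index subgroup of `SL(2, ℤ)` is finitely generated. -/
theorem dsckmfc_fg_of_finiteIndex (Γ : Subgroup SL(2, ℤ)) [Γ.FiniteIndex] : Group.FG Γ := by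
  have := dsckmfc_fg_SL2Z
  exact Subgroup.fg_of_index_ne_zero Γ

/-- the characters of exponent `n` of a finitely generated group form a finite set. -/
theorem dsckmfc_finite_chars_of_fg (G : Type*) [Group G] [Group.FG G] {n : ℕ} (hn : 0 < n) :
    {χ : G →* ℂˣ | ∀ γ : G, χ γ ^ n = 1}.Finite := by
  classical
  haveI : NeZero n := ⟨hn.ne'⟩
  obtain ⟨S, hS, hSfin⟩ := Group.fg_iff.1 (inferInstance : Group.FG G)
  haveI : Finite S := hSfin
  let Φ : {χ : G →* ℂˣ // ∀ γ : G, χ γ ^ n = 1} → (S → rootsOfUnity n ℂ) :=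
    fun χ s => ⟨χ.1 s, by rw [mem_rootsOfUnity]; exact χ.2 s⟩
  have hinj : Function.Injective Φ := by
    intro χ ψ h
    apply Subtype.ext
    refine MonoidHom.eq_of_eqOn_dense hS ?_
    intro s hs
    have h1 := congrFun h ⟨s, hs⟩
    exact congrArg (fun u : rootsOfUnity n ℂ => (u : ℂˣ)) h1
  have hfin : Finite {χ : G →* ℂˣ // ∀ γ : G, χ γ ^ n = 1} := Finite.of_injective Φ hinj
  exact Set.finite_coe_iff.1 hfin

/-- (CHAR-FIN) -/
theorem dsckm_finite_chars (L : DscLevelC) {n : ℕ} (hn : 0 < n) :
    {χ : L.Γ →* ℂˣ | ∀ γ : L.Γ, χ γ ^ n = 1}.Finite := by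
  have : Group.FG L.Γ := dsckmfc_fg_of_finiteIndex L.Γ
  exact dsckmfc_finite_chars_of_fg L.Γ hn

end Fermat.Agent.DS
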