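/-
Program DS (S48), package (C), row C6 (THETA) — generic Kummer package over a level datum
`L : DscLevelC` (helper17's `Lv/`), row KUM-ORBIT: the orbit polynomial of an `L.Γ`-invariant
holomorphic function which is meromorphic at the cusps has coefficients in `ℂ[j]` (prefix `dsckmo_`).
(Generic port of `G/Kum/Orbit.lean` of helper11; helper13.)
-/
import Mathlib
import Fermat.Agent.DS.C.Th.Kum.Defs

set_option autoImplicit false
set_option linter.unusedSectionVars false
set_option linter.style.haveILetI false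

noncomputable section

namespace Fermat.Agent.DS

open UpperHalfPlane ModularCurve AlgebraicCurve CongruenceSubgroup Fermat.Agent.S24
  Fermat.Agent.G IntermediateField
open scoped MatrixGroups Manifold ModularForm Real

/-! ### generalities on expansions -/

theorem dsckmo_coeffMap_id (S : LaurentSeries ℂ) : coeffMap (RingHom.id ℂ) S = S :=
  dsckm_coeffMap_id S

/-- finitely many functions with expansions have expansions of a common width -/
theorem dsckmo_exists_common_width {ι : Type*} [Fintype ι] (f : ι → ℍ → ℂ)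
    (hf : ∀ i, ∃ (h : ℕ) (_ : NeZero h) (S : LaurentSeries ℂ), HasCuspExp h (f i) S) :
    ∃ (H : ℕ) (_ : NeZero H), ∀ i, ∃ S : LaurentSeries ℂ, HasCuspExp H (f i) S := by
  classical
  choose h hne S hS using hf
  have hH : (∏ i, h i) ≠ 0 := Finset.prod_ne_zero_iff.mpr fun i _ => NeZero.ne (h i)
  refine ⟨∏ i, h i, ⟨hH⟩, fun i => ?_⟩
  have hk : (∏ j ∈ Finset.univ.erase i, h j) ≠ 0 :=
    Finset.prod_ne_zero_iff.mpr fun j _ => NeZero.ne (h j)
  haveI : NeZero (∏ j ∈ Finset.univ.erase i, h j) := ⟨hk⟩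
  have h1 := (hS i).qExpand (∏ j ∈ Finset.univ.erase i, h j)
  rw [Finset.mul_prod_erase Finset.univ h (Finset.mem_univ i)] at h1
  exact ⟨_, h1⟩

/-- the expansion of a polynomial in `j` -/
theorem dsckmo_hasCuspExp_aeval (Q : Polynomial ℂ) :
    HasCuspExp 1 ((Polynomial.aeval (R := ℂ) jHol Q : HolRing) : ℍ → ℂ)
      (Polynomial.aeval (coeffEmb ℂ jq) Q) := by
  have hj : HasCuspExp 1 (jHol : ℍ → ℂ) (coeffEmb ℂ jq) := by
    have h := hasCuspExp_jFun
    rw [← dscl_coeffMap_coeffEmb_jq (RingHom.id ℂ), dsckmo_coeffMap_id] at h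
    exact h
  induction Q using Polynomial.induction_on with
  | C c =>
    rw [Polynomial.aeval_C, Polynomial.aeval_C, HolRing.algebraMap_eq, dscl_deg_algebraMap_laurent]
    exact HasCuspExp.const c
  | add p q hp hq =>
    rw [map_add, map_add, Subring.coe_add]
    exact hp.add hq
  | monomial n c hn =>
    have e1 : Polynomial.aeval (R := ℂ) jHol (Polynomial.C c * Polynomial.X ^ (n + 1)) =
        Polynomial.aeval (R := ℂ) jHol (Polynomial.C c * Polynomial.X ^ n) * jHol := by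
      rw [pow_succ, ← mul_assoc, map_mul (Polynomial.aeval (R := ℂ) jHol) _ Polynomial.X,
        Polynomial.aeval_X]
    have e2 : Polynomial.aeval (coeffEmb ℂ jq) (Polynomial.C c * Polynomial.X ^ (n + 1)) =
        Polynomial.aeval (coeffEmb ℂ jq) (Polynomial.C c * Polynomial.X ^ n) * coeffEmb ℂ jq := by
      rw [pow_succ, ← mul_assoc, map_mul (Polynomial.aeval (coeffEmb ℂ jq)) _ Polynomial.X,
        Polynomial.aeval_X]
    rw [e1, e2, Subring.coe_mul]
    exact hn.mul hj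

/-! ### the orbit polynomial -/

section Orbit

variable {L : DscLevelC}

/-- A `Fintype` structure on the coset space (local to this file). -/
local instance dsckmoFintypeQuot : Fintype (SL(2, ℤ) ⧸ L.Γ) :=
  Fintype.ofFinite _

theorem dsckmo_smul_of_mem {G : HolRing} (hinv : DsckmMult L 1 G) {γ : SL(2, ℤ)}
    (hγ : γ ∈ L.Γ) : γ • G = G := by
  have h := hinv ⟨γ⁻¹, inv_mem hγ⟩
  simp only [MonoidHom.one_apply, Units.val_one, map_one, one_mul, inv_inv] at h
  exact h

/-- The conjugate `g • G` only depends on the coset `g Γ₀(N)`. -/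
theorem dsckmo_smul_eq_of_coset {G : HolRing} (hinv : DsckmMult L 1 G) {g g' : SL(2, ℤ)}
    (h : g⁻¹ * g' ∈ L.Γ) : g' • G = g • G := by
  have h1 : g' = g * (g⁻¹ * g') := by group
  rw [h1, mul_smul, dsckmo_smul_of_mem hinv h]

/-- The orbit polynomial of holomorphic functions. -/
def dsckmoOrbHol (L : DscLevelC) (G : HolRing) : Polynomial HolRing :=
  ∏ ξ : SL(2, ℤ) ⧸ L.Γ, (Polynomial.X - Polynomial.C (ξ.out • G))

theorem dsckmoOrbHol_monic (G : HolRing) : (dsckmoOrbHol L G).Monic :=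
  Polynomial.monic_prod_of_monic _ _ fun _ _ => Polynomial.monic_X_sub_C _

theorem dsckmoOrbHol_natDegree (G : HolRing) :
    (dsckmoOrbHol L G).natDegree = Nat.card (SL(2, ℤ) ⧸ L.Γ) := by
  rw [dsckmoOrbHol, Polynomial.natDegree_prod_of_monic _ _ fun _ _ => Polynomial.monic_X_sub_C _]
  simp [Nat.card_eq_fintype_card]

theorem dsckmoOrbHol_eval {G : HolRing} (hinv : DsckmMult L 1 G) :
    (dsckmoOrbHol L G).eval G = 0 := by
  rw [dsckmoOrbHol, Polynomial.eval_prod]
  refine Finset.prod_eq_zero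
    (Finset.mem_univ (QuotientGroup.mk (1 : SL(2, ℤ)) : SL(2, ℤ) ⧸ L.Γ)) ?_
  have hg : (1 : SL(2, ℤ))⁻¹ *
      (QuotientGroup.mk (1 : SL(2, ℤ)) : SL(2, ℤ) ⧸ L.Γ).out ∈
      L.Γ := by
    rw [← QuotientGroup.eq]
    exact (QuotientGroup.out_eq' _).symm
  have h1 := dsckmo_smul_eq_of_coset hinv hg
  rw [one_smul] at h1
  simp [h1]

/-- The conjugates are permuted by `SL(2, ℤ)`. -/
theorem dsckmo_smul_out_smul {G : HolRing} (hinv : DsckmMult L 1 G) (γ : SL(2, ℤ))
    (ξ : SL(2, ℤ) ⧸ L.Γ) :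
    γ • (ξ.out • G) = (γ • ξ).out • G := by
  rw [← mul_smul]
  refine dsckmo_smul_eq_of_coset hinv ?_
  rw [← QuotientGroup.eq, QuotientGroup.out_eq']
  conv_lhs => rw [← QuotientGroup.out_eq' ξ]
  rfl

theorem dsckmo_smul_orbHol_coeff {G : HolRing} (hinv : DsckmMult L 1 G) (γ : SL(2, ℤ)) (k : ℕ) :
    γ • (dsckmoOrbHol L G).coeff k = (dsckmoOrbHol L G).coeff k := by
  have h1 : γ • (dsckmoOrbHol L G).coeff k =
      ((dsckmoOrbHol L G).map (MulSemiringAction.toRingHom SL(2, ℤ) HolRing γ)).coeff k := by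
    rw [Polynomial.coeff_map]; rfl
  rw [h1]
  congr 1
  rw [dsckmoOrbHol, Polynomial.map_prod]
  simp only [Polynomial.map_sub, Polynomial.map_X, Polynomial.map_C,
    MulSemiringAction.toRingHom_apply, dsckmo_smul_out_smul hinv]
  exact Fintype.prod_equiv (MulAction.toPerm γ) _ _ fun ξ => rfl

/-- every coefficient of the orbit polynomial has an expansion of some width -/
theorem dsckmo_orbHol_coeff_exp {G : HolRing} (hc : DsckmCusp G) (k : ℕ) :
    ∃ (H : ℕ) (_ : NeZero H) (c : LaurentSeries ℂ),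
      HasCuspExp H (((dsckmoOrbHol L G).coeff k : HolRing) : ℍ → ℂ) c := by
  obtain ⟨H, hH, hS⟩ := dsckmo_exists_common_width
    (fun ξ : SL(2, ℤ) ⧸ L.Γ => ((ξ.out • G : HolRing) : ℍ → ℂ))
    (fun ξ => hc ξ.out)
  choose S hS using hS
  -- the conjugates together with their expansions
  let p : SL(2, ℤ) ⧸ L.Γ → dsclExpSubring (RingHom.id ℂ) H := fun ξ =>
    ⟨(ξ.out • G, S ξ), by
      rw [dscl_mem_expSubring, dsckmo_coeffMap_id]
      exact hS ξ⟩
  let P : Polynomial (dsclExpSubring (RingHom.id ℂ) H) := ∏ ξ, (Polynomial.X - Polynomial.C (p ξ))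
  have hfst : P.map ((RingHom.fst HolRing (LaurentSeries ℂ)).comp (dsclExpSubring (RingHom.id ℂ) H).subtype) = dsckmoOrbHol L G := by
    simp only [P, dsckmoOrbHol, Polynomial.map_prod, Polynomial.map_sub, Polynomial.map_X,
      Polynomial.map_C]
    rfl
  have h := (P.coeff k).2
  rw [dscl_mem_expSubring, dsckmo_coeffMap_id] at h
  refine ⟨H, hH, (P.coeff k).1.2, ?_⟩
  rw [← hfst, Polynomial.coeff_map]
  exact h

/-- every coefficient of the orbit polynomial is a polynomial in `j` -/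
theorem dsckmo_exists_poly_coeff {G : HolRing} (hinv : DsckmMult L 1 G) (hc : DsckmCusp G) (k : ℕ) :
    ∃ Q : Polynomial ℂ, (dsckmoOrbHol L G).coeff k = Polynomial.aeval (R := ℂ) jHol Q := by
  set f : HolRing := (dsckmoOrbHol L G).coeff k with hf
  obtain ⟨H, hH, c, hexp⟩ := dsckmo_orbHol_coeff_exp (L := L) hc k
  have hinv' : ∀ γ : SL(2, ℤ), γ • f = f := fun γ => dsckmo_smul_orbHol_coeff hinv γ k
  have hper : ∀ τ : ℍ, (f : ℍ → ℂ) (ModularGroup.T • τ) = (f : ℍ → ℂ) τ := by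
    intro τ
    rw [← HolRing.inv_smul_apply, hinv']
  obtain ⟨S₁, hS₁, -⟩ := hexp.exists_of_periodic hper
  obtain ⟨Q, hQ⟩ := dscl_exists_poly_of_invariant (RingHom.id ℂ) f hinv' S₁
    (by rw [dsckmo_coeffMap_id]; exact hS₁)
  refine ⟨Q, ?_⟩
  rw [hQ] at hS₁
  exact Subtype.ext (hS₁.eq_of_eq (dsckmo_hasCuspExp_aeval Q))

end Orbit

variable {L : DscLevelC}

/-- (ORBIT) the orbit polynomial `∏_{ξ ∈ SL₂(ℤ)/Γ} (X - ξ • G)` has coefficients in `ℂ[j]`
(a general invariant `G` meromorphic at the cusps). -/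
theorem dsckm_exists_monic (G : HolRing) (hinv : DsckmMult L 1 G) (hc : DsckmCusp G) :
    ∃ P : Polynomial (Polynomial ℂ), P.Monic ∧
      P.natDegree = Nat.card (SL(2, ℤ) ⧸ L.Γ) ∧
      Polynomial.eval₂ ((Polynomial.aeval (R := ℂ) jHol).toRingHom) G P = 0 := by
  set φ : Polynomial ℂ →+* HolRing := (Polynomial.aeval (R := ℂ) jHol).toRingHom with hφ
  have hlift : dsckmoOrbHol L G ∈ Polynomial.lifts φ := by
    rw [Polynomial.lifts_iff_coeff_lifts]
    intro k
    obtain ⟨Q, hQ⟩ := dsckmo_exists_poly_coeff hinv hc k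
    exact ⟨Q, hQ.symm⟩
  obtain ⟨P, hPmap, hPdeg, hPmonic⟩ :=
    Polynomial.lifts_and_natDegree_eq_and_monic hlift (dsckmoOrbHol_monic G)
  refine ⟨P, hPmonic, by rw [hPdeg, dsckmoOrbHol_natDegree], ?_⟩
  rw [← Polynomial.eval_map, hPmap]
  exact dsckmoOrbHol_eval hinv

end Fermat.Agent.DS
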