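/-
Program DS (S48), package (C), row C6 (THETA) — generic Kummer package over a level datum
`L : DscLevelC` (helper17's `Lv/`), row KUM-ORD: orders at the points of `ℍ`.
(Generic port of `G/Kum/Ord.lean` of helper28; helper13.)

`dsckm_order_dvd` : if `x ≠ 0` in `F_ℂ = L.F` is (the expansion of) a holomorphic function `G`
on `ℍ` and `n ∣ ord_P x` for every place `P` of `F_ℂ`, then `n` divides the analytic order of `G` at
every point `τ` of `ℍ`.

Route: `ε := dsclPointEmb L τ 1 : F_ℂ →+* ℂ((t))` (Taylor expansion at `τ`); `ε x` is the Taylor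
series of `G`, so `(ε x).order` is the analytic order of `G` at `τ`; the pulled-back valuation
defines a place `κ` of `F_ℂ` (S24 `placeOfValuation`) with `(ε f).order = m * κ.ord f`.
-/
import Mathlib
import Fermat.Agent.DS.C.Th.Kum.Defs
import Fermat.Agent.S24.PlaceOfValuation
import Fermat.Agent.S24.EmbCount
import Fermat.Agent.S24.JDeriv

set_option autoImplicit false
set_option linter.unusedSectionVars false

noncomputable section

namespace Fermat.Agent.DS

open UpperHalfPlane ModularCurve AlgebraicCurve Fermat.Agent.S24 Fermat.Agent.G WithZero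
open scoped MatrixGroups Manifold ModularForm Real

variable {L : DscLevelC} {n : ℕ}

/-- an element of `F_ℂ` which is the holomorphic function `G` has the Taylor series of `G` as its
expansion at `τ`. -/
theorem dsckmo_pointEmb_eq {x : L.F} {G : HolRing}
    (hG : HasCuspExp 1 (G : ℍ → ℂ) ((x : L.F) : LaurentSeries ℂ)) (τ : ℍ) :
    dsclPointEmb L τ 1 x = HahnSeries.ofPowerSeries ℤ ℂ (taylorDisc τ G) := by
  have := L.frac
  obtain ⟨a, s, hs, rfl⟩ := IsFractionRing.div_surjective (A := L.R) x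
  have hs0 : s ≠ 0 := nonZeroDivisors.ne_zero hs
  have hsF : (algebraMap (L.R) (L.F) s) ≠ 0 := by
    intro h
    exact hs0 (IsFractionRing.injective (L.R) (L.F) (by rw [h, map_zero]))
  have ha := L.hasCuspExp a
  have hsE := L.hasCuspExp s
  rw [coeffMap_id] at ha hsE
  have hmul := hsE.mul hG
  have hcoe : ((s : L.F) : LaurentSeries ℂ) *
      ((algebraMap (L.R) (L.F) a / algebraMap (L.R) (L.F) s :
        L.F) : LaurentSeries ℂ) = ((a : L.F) : LaurentSeries ℂ) := by
    have : (algebraMap (L.R) (L.F) s) *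
        (algebraMap (L.R) (L.F) a / algebraMap (L.R) (L.F) s) =
        algebraMap (L.R) (L.F) a := mul_div_cancel₀ _ hsF
    exact congrArg (fun y : L.F => (y : LaurentSeries ℂ)) this
  rw [hcoe] at hmul
  have heq : L.toHol s * G = L.toHol a := Subtype.ext (hmul.eq_of_eq ha)
  have hT := congrArg (taylorDisc τ) heq
  rw [map_mul] at hT
  have hTs : HahnSeries.ofPowerSeries ℤ ℂ (taylorDisc τ (L.toHol s)) ≠ 0 := by
    intro h
    have h1 : taylorDisc τ (L.toHol s) = 0 :=
      HahnSeries.ofPowerSeries_injective (by rw [h, map_zero])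
    have h2 : L.toHol s = 0 := taylorDisc_injective τ (by rw [h1, map_zero])
    exact hs0 (dscl_toHol_injective L (by rw [h2, map_zero]))
  have e1 : dsclPointEmb L τ 1 (algebraMap (L.R) (L.F) a) =
      HahnSeries.ofPowerSeries ℤ ℂ (taylorDisc τ (L.toHol a)) := by
    have := dsclPointEmb_coe L τ 1 a
    rwa [one_smul] at this
  have e2 : dsclPointEmb L τ 1 (algebraMap (L.R) (L.F) s) =
      HahnSeries.ofPowerSeries ℤ ℂ (taylorDisc τ (L.toHol s)) := by
    have := dsclPointEmb_coe L τ 1 s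
    rwa [one_smul] at this
  rw [map_div₀, e1, e2, ← hT, map_mul, mul_div_cancel_left₀ _ hTs]

/-- the order of the Taylor series at `τ`, as an integer -/
theorem dsckmo_order_ofPowerSeries (p : PowerSeries ℂ) (hp : p ≠ 0) :
    ((HahnSeries.ofPowerSeries ℤ ℂ p).order : ℤ) = (p.order.toNat : ℤ) := by
  have h1 : p.order = (p.order.toNat : ℕ∞) := by
    rw [ENat.natCast_toNat]
    exact (PowerSeries.order_finite_iff_ne_zero.mpr hp).ne
  exact order_ofPowerSeries_of_order_eq p _ h1

/-- the place of `F_ℂ` below the point `τ`: `(ε f).order = m * κ.ord f` with `m ≥ 1`. -/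
theorem dsckmo_exists_place (L : DscLevelC) (τ : ℍ) :
    ∃ (κ : Place ℂ (L.F)) (m : ℤ), 0 < m ∧
      ∀ f : L.F, f ≠ 0 → (dsclPointEmb L τ 1 f).order = m * κ.ord f := by
  set ε := dsclPointEmb L τ 1 with hε
  have hεne : ∀ {f : L.F}, f ≠ 0 → ε f ≠ 0 := fun hf =>
    (map_ne_zero_iff ε ε.injective).2 hf
  let w : Valuation (L.F) ℤᵐ⁰ :=
    (Valued.v : Valuation (LaurentSeries ℂ) ℤᵐ⁰).comap ε
  have hw : ∀ f, f ≠ 0 → w f = exp (-(ε f).order) := fun f hf =>
    embCount_valuation_eq_exp_neg_order (hεne hf)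
  have hk : ∀ a : ℂ, w (algebraMap ℂ (L.F) a) ≤ 1 := by
    intro a
    rcases eq_or_ne a 0 with rfl | ha
    · simp
    · have ha' : algebraMap ℂ (L.F) a ≠ 0 := by simpa using ha
      rw [hw _ ha', hε, dsclPointEmb_algebraMap, RingHom.id_apply, HahnSeries.order_C, neg_zero, exp_zero]
  -- `j - j(τ)` has positive order
  obtain ⟨e, he⟩ : ∃ e : ℕ,
      analyticOrderAt (fun z : ℂ => jFun (ofComplex z) - jFun τ) (τ : ℂ) = e := by
    rw [analyticOrderAt_jFun_sub]
    split_ifs
    · exact ⟨3, rfl⟩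
    · exact ⟨2, rfl⟩
    · exact ⟨1, rfl⟩
  have hepos : 0 < e := pos_of_analyticOrderAt_jFun_sub τ e he
  have hord := dscl_order_pointEmb_jF_sub L τ 1 (jFun τ) rfl e he
  have ht0 : L.jF - algebraMap ℂ (L.F) (jFun τ) ≠ 0 := by
    intro h
    rw [h, map_zero, HahnSeries.order_zero] at hord
    omega
  have hnt : ∃ x : L.F, x ≠ 0 ∧ w x ≠ 1 := by
    refine ⟨_, ht0, ?_⟩
    rw [hw _ ht0, hε, hord, ← exp_zero, Ne, exp_inj]
    omega
  obtain ⟨m, hm0, hm⟩ := exists_ord_placeOfValuation (k := ℂ) w hk hnt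
  refine ⟨placeOfValuation (k := ℂ) w hk hnt, m, hm0, fun f hf => ?_⟩
  rw [← hm f hf, hw f hf, log_exp, neg_neg]

/-- **KUM-ORD**: the analytic order at `τ` is a multiple of the order at the place of `F_ℂ` below
`τ` (`dsclPointEmb L τ 1` + S24 `placeOfValuation`). -/
theorem dsckm_order_dvd {x : L.F} (hx : x ≠ 0) {G : HolRing}
    (hG : HasCuspExp 1 (G : ℍ → ℂ) ((x : L.F) : LaurentSeries ℂ))
    (hdiv : GdDiv ℂ (L.F) n x) (τ : ℍ) :
    ∃ m : ℕ, analyticOrderAt ((G : ℍ → ℂ) ∘ ofComplex) (τ : ℂ) = ((n * m : ℕ) : ℕ∞) := by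
  obtain ⟨κ, m, hm0, hm⟩ := dsckmo_exists_place L τ
  have h1 := hm x hx
  rw [dsckmo_pointEmb_eq hG τ] at h1
  have hT0 : taylorDisc τ G ≠ 0 := by
    intro h
    have h2 := dsckmo_pointEmb_eq hG τ
    rw [h, map_zero] at h2
    exact hx ((map_eq_zero_iff _ (dsclPointEmb L τ 1).injective).1 h2)
  rw [dsckmo_order_ofPowerSeries _ hT0] at h1
  have hfin : (taylorDisc τ G).order = ((taylorDisc τ G).order.toNat : ℕ∞) := by
    rw [ENat.natCast_toNat]
    exact (PowerSeries.order_finite_iff_ne_zero.mpr hT0).ne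
  have hord : analyticOrderAt ((G : ℍ → ℂ) ∘ ofComplex) (τ : ℂ) =
      ((taylorDisc τ G).order.toNat : ℕ∞) := by
    rw [← hfin, order_taylorDisc]
    rfl
  obtain ⟨c, hc⟩ := hdiv κ
  rw [hc] at h1
  rcases Nat.eq_zero_or_pos n with rfl | hn
  · refine ⟨0, ?_⟩
    rw [hord]
    have : ((taylorDisc τ G).order.toNat : ℤ) = 0 := by rw [h1]; push_cast; ring
    have h0 : (taylorDisc τ G).order.toNat = 0 := by exact_mod_cast this
    rw [h0]
  · -- `order = n * (m * c)` with `m * c ≥ 0`
    have hmc : 0 ≤ m * c := by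
      by_contra hneg
      push Not at hneg
      have : ((taylorDisc τ G).order.toNat : ℤ) < 0 := by
        rw [h1]
        have hn' : (0 : ℤ) < n := by exact_mod_cast hn
        nlinarith
      omega
    refine ⟨(m * c).toNat, ?_⟩
    rw [hord]
    have : ((taylorDisc τ G).order.toNat : ℤ) = ((n * (m * c).toNat : ℕ) : ℤ) := by
      rw [h1]; push_cast; rw [Int.toNat_of_nonneg hmc]; ring
    have h0 : (taylorDisc τ G).order.toNat = n * (m * c).toNat := by exact_mod_cast this
    rw [h0]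

end Fermat.Agent.DS
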