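/-
Program DS / package (C), row C6 (THETA), generic Kum port (helper22): WIRING of the top statements
(ROOT, UNIQ, EIS, DIV, FIN) over a level datum `L : DscLevelC` from the rows
`Th/Kum/{Alg, Ord, Orbit, PerExp, Mem, DivPoint, DivCusp, EisHol}` and the level-free `G/Kum/RootHol`.
(The HECKE wiring `dsckm_rel_hecke` lives with the Hecke files of helper8.)

For `x ∈ L.F` and a character `χ : L.Γ →* ℂˣ`:
`DsckmRel L n χ x`  :⇔  some `x b^n` is holomorphic on `ℍ` and has a holomorphic `n`-th root `H` with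
`H(γτ) = χ(γ) H(τ)`.  Then
* (ROOT)  `x ∈ W_n(F)`                   ⟹ `∃ χ, DsckmRel L n χ x`
* (UNIQ)  `DsckmRel χ x`, `DsckmRel χ y` ⟹ `y ∈ x F^{×n}`
* (EIS)   `χ` PE, `χ^n = 1`              ⟹ `∃ x ≠ 0, DsckmRoot L n χ x`
* (DIV)   `DsckmRoot χ x`, `χ` PE        ⟹ `x ∈ W_n(F)`
* (FIN)   `W_n(F) / F^{×n}` is finite.
-/
import Fermat.Agent.DS.C.Th.Kum.Defs
import Fermat.Agent.DS.C.Th.Kum.Alg
import Fermat.Agent.DS.C.Th.Kum.Ord
import Fermat.Agent.DS.C.Th.Kum.Orbit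
import Fermat.Agent.DS.C.Th.Kum.PerExp
import Fermat.Agent.DS.C.Th.Kum.DivCusp
import Fermat.Agent.DS.C.Th.Kum.EisHol
import Fermat.Agent.DS.C.Th.Kum.FinChars
import Fermat.Agent.DS.C.Th.Kum.Mem
import Fermat.Agent.DS.C.Th.Kum.DivPoint
import Fermat.Agent.G.Kum.RootHol

set_option autoImplicit false

noncomputable section

namespace Fermat.Agent.DS

open UpperHalfPlane ModularCurve AlgebraicCurve CongruenceSubgroup Fermat.Agent.S24
  Fermat.Agent.G IntermediateField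
open scoped MatrixGroups Manifold ModularForm Real

variable {L : DscLevelC} {n : ℕ}

/-! ### small helpers -/

theorem dsckmw_coeffMap_iota (S : LaurentSeries ℂ) : coeffMap (RingHom.id ℂ) S = S := coeffMap_id S

theorem dsckmw_hol_toHol (a : L.R) :
    HasCuspExp 1 (L.toHol a : ℍ → ℂ) (((a : L.F)) : LaurentSeries ℂ) := by
  have h := L.hasCuspExp a
  rwa [dsckmw_coeffMap_iota] at h

theorem dsckmw_hasCuspExp_pow {h : ℕ} [NeZero h] {f : ℍ → ℂ} {S : LaurentSeries ℂ}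
    (hf : HasCuspExp h f S) (m : ℕ) : HasCuspExp h (f ^ m) (S ^ m) := by
  induction m with
  | zero =>
    rw [pow_zero, pow_zero]
    have := HasCuspExp.const (h := h) (1 : ℂ)
    rw [map_one] at this
    exact this
  | succ k ih =>
    rw [pow_succ, pow_succ]
    exact ih.mul hf

theorem dsckmw_hol_pow {x : L.F} {G : HolRing}
    (hG : HasCuspExp 1 (G : ℍ → ℂ) ((x : L.F) : LaurentSeries ℂ)) (m : ℕ) :
    HasCuspExp 1 ((G ^ m : HolRing) : ℍ → ℂ) (((x ^ m : L.F)) : LaurentSeries ℂ) := by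
  have := dsckmw_hasCuspExp_pow hG m
  simpa using this

theorem dsckmw_hol_mul {x y : L.F} {G G' : HolRing}
    (hG : HasCuspExp 1 (G : ℍ → ℂ) ((x : L.F) : LaurentSeries ℂ))
    (hG' : HasCuspExp 1 (G' : ℍ → ℂ) ((y : L.F) : LaurentSeries ℂ)) :
    HasCuspExp 1 ((G * G' : HolRing) : ℍ → ℂ) (((x * y : L.F)) : LaurentSeries ℂ) := by
  have := hG.mul hG'
  simpa using this

theorem dsckmw_hol_unique {x y : L.F} {G : HolRing}
    (hx : HasCuspExp 1 (G : ℍ → ℂ) ((x : L.F) : LaurentSeries ℂ))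
    (hy : HasCuspExp 1 (G : ℍ → ℂ) ((y : L.F) : LaurentSeries ℂ)) : x = y :=
  Subtype.ext (hx.unique hy)

theorem dsckmw_hol_zero : HasCuspExp 1 ((0 : HolRing) : ℍ → ℂ)
    (((0 : L.F)) : LaurentSeries ℂ) := by
  have := HasCuspExp.const (h := 1) (0 : ℂ)
  rw [map_zero] at this
  exact this

theorem dsckmw_hol_eq_zero_iff {x : L.F} {G : HolRing}
    (hG : HasCuspExp 1 (G : ℍ → ℂ) ((x : L.F) : LaurentSeries ℂ)) : G = 0 ↔ x = 0 := by
  constructor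
  · rintro rfl
    exact dsckmw_hol_unique hG dsckmw_hol_zero
  · rintro rfl
    exact Subtype.ext (hG.eq_of_eq dsckmw_hol_zero)

/-! ### (ROOT) -/

theorem dsckm_exists_rel (hn : 0 < n) {x : L.F} (hx : x ≠ 0)
    (hdiv : GdDiv ℂ (L.F) n x) : ∃ χ : L.Γ →* ℂˣ, DsckmRel L n χ x := by
  obtain ⟨b, G, hb, hG⟩ := dsckm_exists_hol hn x
  have hxb : x * b ^ n ≠ 0 := mul_ne_zero hx (pow_ne_zero n hb)
  have hdiv' : GdDiv ℂ (L.F) n (x * b ^ n) := by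
    intro P
    rw [P.ord_mul hx (pow_ne_zero n hb), ← zpow_natCast, P.ord_zpow]
    exact dvd_add (hdiv P) (Dvd.intro _ rfl)
  have hord := dsckm_order_dvd hxb hG hdiv'
  have hG0 : G ≠ 0 := fun h => hxb ((dsckmw_hol_eq_zero_iff hG).1 h)
  obtain ⟨H, hH⟩ := gkm_exists_holRoot hn G hG0 hord
  have hinv : DsckmMult L 1 (H ^ n) := by rw [hH]; exact dsckm_hol_invariant hG
  have hH0 : H ≠ 0 := by
    rintro rfl
    rw [zero_pow hn.ne'] at hH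
    exact hG0 hH.symm
  obtain ⟨χ, hχ⟩ := dsckm_exists_mult hn H hH0 hinv
  exact ⟨χ, b, hb, H, by rw [hH]; exact hG, hχ⟩

/-! ### (UNIQ) -/

theorem dsckm_rel_unique (hn : 0 < n) {χ : L.Γ →* ℂˣ} {x y : L.F} (hx : x ≠ 0)
    (hy : y ≠ 0) (h₁ : DsckmRel L n χ x) (h₂ : DsckmRel L n χ y) : GdRel n x y := by
  have hχn : ∀ γ : L.Γ, χ γ ^ n = 1 := dsckm_rel_char_pow hn hx h₁
  obtain ⟨b, hb, H₁, hH₁, hm₁⟩ := h₁
  obtain ⟨c, hc, H₂, hH₂, hm₂⟩ := h₂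
  have hχ1 : χ * χ ^ (n - 1) = 1 := by
    ext γ
    rw [MonoidHom.mul_apply, MonoidHom.pow_apply, ← pow_succ', Nat.sub_add_cancel hn, hχn]
    rfl
  have hmG : DsckmMult L 1 (H₂ * H₁ ^ (n - 1)) := by
    have := dsckm_mult_mul hm₂ (dsckm_mult_pow hm₁ (n - 1))
    rwa [hχ1] at this
  have hpow : (H₂ * H₁ ^ (n - 1)) ^ n = H₂ ^ n * (H₁ ^ n) ^ (n - 1) := by
    rw [mul_pow, ← pow_mul, ← pow_mul, mul_comm (n - 1) n]
  have hGn : HasCuspExp 1 (((H₂ * H₁ ^ (n - 1)) ^ n : HolRing) : ℍ → ℂ)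
      (((y * c ^ n * (x * b ^ n) ^ (n - 1) : L.F)) : LaurentSeries ℂ) := by
    rw [hpow]
    exact dsckmw_hol_mul hH₂ (dsckmw_hol_pow hH₁ (n - 1))
  have hcG : DsckmCusp (H₂ * H₁ ^ (n - 1)) :=
    dsckm_cusp_of_root hn (χ := 1) (fun _ => one_pow _) hmG (dsckm_hol_cusp hGn)
  obtain ⟨v, hv⟩ := dsckm_mem_of_cusp (H₂ * H₁ ^ (n - 1)) hmG hcG
  have hvn : v ^ n = y * c ^ n * (x * b ^ n) ^ (n - 1) := dsckmw_hol_unique (dsckmw_hol_pow hv n) hGn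
  have hv0 : v ≠ 0 := by
    rintro rfl
    rw [zero_pow hn.ne'] at hvn
    exact mul_ne_zero (mul_ne_zero hy (pow_ne_zero n hc))
      (pow_ne_zero _ (mul_ne_zero hx (pow_ne_zero n hb))) hvn.symm
  have hden : c * (x * b ^ (n - 1)) ≠ 0 :=
    mul_ne_zero hc (mul_ne_zero hx (pow_ne_zero _ hb))
  refine ⟨v / (c * (x * b ^ (n - 1))), div_ne_zero hv0 hden, ?_⟩
  rw [div_pow, hvn]
  have hxn : x ^ n = x * x ^ (n - 1) := by rw [← pow_succ', Nat.sub_add_cancel hn]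
  have hbn : (b ^ n) ^ (n - 1) = (b ^ (n - 1)) ^ n := by
    rw [← pow_mul, ← pow_mul, mul_comm]
  rw [mul_pow, mul_pow, mul_pow, hxn, hbn]
  field_simp

/-! ### (EIS) -/

theorem dsckm_exists_of_char (hn : 0 < n) (χ : L.Γ →* ℂˣ) (hχ : DsckmPE L χ)
    (hχn : ∀ γ : L.Γ, χ γ ^ n = 1) : ∃ x : L.F, x ≠ 0 ∧ DsckmRoot L n χ x := by
  have hu : ∀ γ : L.Γ, ‖((χ γ : ℂˣ) : ℂ)‖ = 1 := by
    intro γ
    have h1 : ((χ γ : ℂˣ) : ℂ) ^ n = 1 := by
      have := congrArg (fun u : ℂˣ => (u : ℂ)) (hχn γ)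
      simpa using this
    have h2 : ‖((χ γ : ℂˣ) : ℂ)‖ ^ n = 1 := by rw [← norm_pow, h1, norm_one]
    exact (pow_eq_one_iff_of_nonneg (norm_nonneg _) hn.ne').1 h2
  obtain ⟨H, hH0, hm, hc⟩ := dsckm_eis_hol χ hχ hu
  have hχ1 : χ ^ n = 1 := by
    ext γ
    rw [MonoidHom.pow_apply, hχn]
    rfl
  have hmn : DsckmMult L 1 (H ^ n) := by
    have := dsckm_mult_pow hm n
    rwa [hχ1] at this
  obtain ⟨u, hu'⟩ := dsckm_mem_of_cusp (H ^ n) hmn (dsckm_cusp_pow hc n)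
  refine ⟨u, ?_, H, hu', hm⟩
  intro h0
  exact hH0 (pow_eq_zero_iff hn.ne' |>.1 ((dsckmw_hol_eq_zero_iff hu').2 h0))

/-! ### (DIV) -/

theorem dsckm_div_of_root (hn : 0 < n) {χ : L.Γ →* ℂˣ} (hχ : DsckmPE L χ) {x : L.F}
    (hx : x ≠ 0) (h : DsckmRoot L n χ x) : GdDiv ℂ (L.F) n x := by
  intro P
  by_cases hP : 0 ≤ P.ord (L.jF)
  · exact dsckm_div_point hn hχ hx h P hP
  · exact dsckm_div_cusp hn hχ hx h P (not_le.1 hP)

/-! ### (FIN) -/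

theorem dsckm_fin (hn : 0 < n) :
    ∃ S : Finset (L.F), ∀ x' : L.F, x' ≠ 0 →
      GdDiv ℂ (L.F) n x' → ∃ s ∈ S, GdRel n s x' := by
  classical
  have hfin := dsckm_finite_chars L hn
  let P : (L.Γ →* ℂˣ) → Prop := fun χ => ∃ x : L.F, x ≠ 0 ∧ DsckmRel L n χ x
  let rep : (L.Γ →* ℂˣ) → L.F := fun χ => if h : P χ then h.choose else 1
  refine ⟨hfin.toFinset.image rep, fun x' hx' hdiv => ?_⟩
  obtain ⟨χ, hχ⟩ := dsckm_exists_rel hn hx' hdiv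
  have hP : P χ := ⟨x', hx', hχ⟩
  have hrep : rep χ = hP.choose := dif_pos hP
  refine ⟨rep χ, Finset.mem_image.2 ⟨χ, ?_, rfl⟩, ?_⟩
  · rw [Set.Finite.mem_toFinset]
    exact dsckm_rel_char_pow hn hx' hχ
  · rw [hrep]
    exact dsckm_rel_unique hn hP.choose_spec.1 hx' hP.choose_spec.2 hχ

end Fermat.Agent.DS
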