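/-
Program DS / package (C), row C6 (THETA), leaf HECKE, generic half (helper22).

The analytic Hecke operator WITH CORRECTORS over a level datum `L : DscLevelC`:
`dsckmHeckeHol c G (τ) = ∏ x, G (c x • α_x • τ)`, `α_x = heckeRep p x` (`α_∞ = [p,0;0,1]`, `α_j = [1,j;0,p]`),
`c : OnePoint (ZMod p) → SL(2, ℤ)` (for `Γ₁(M)`: `c ∞ = σ_p`, `c j = 1`, helper4's `dscCorr`).

* (HCUSP) `dsckm_heckeHol_cusp`  : it preserves meromorphy at the cusps;
* (HEXP)  `dsckm_heckeHol_cuspExp_aux`, `dsckm_heckeHol_cuspExp` : if `(c ∞)⁻¹ • G = ∑ A_m q^m` and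
  `(c j)⁻¹ • G = ∑ B_m q^m` for all finite `j`, then `dsckmHeckeHol c G` has the expansion
  `A(Q^(p²)) ∏_{i<p} B(ζ^i Q)` in `Q = q^(1/p)` (`DsckmIsHeckeNorm p ζ A B S'`);
* (HMULT) `dsckm_heckeHol_smul` : for a Hecke datum `D : S16lbHeckeData (GL (Fin 2) ℝ) Γ' _` with these
  representatives and `j : Γ' →* L.Γ`, the multiplier of `dsckmHeckeHol c H` at `j γ` is `∏ i, χ (j (D.coc γ i))`;
* (TWIST) `dsckmh_hasCuspExp_twist` : if `toHol` intertwines `δ : L.F →+* L.F` with `σ⁻¹ •` on `L.R` then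
  every holomorphic `G` with expansion `x ∈ L.F` has `σ⁻¹ • G` with expansion `δ x`;
* (HECKE) `dsckm_rel_hecke_gen` : `DsckmRel L n χ x`, `y` = twisted Hecke norm of `x`
  ⟹ `DsckmRel L n χ' y` for a character `χ'` with `χ' (± j γ) = ∏ i, χ (j (D.coc γ i))`.
Level-free inputs imported from main: `G/Kum/HeckeExp.lean` (`gkmx_cuspExp_infty`, `gkmx_cuspExp_coe`),
`G/Kum/HeckeCusp.lean` (`gkmc_comp_affine`, `gkmc_prod`).  Private prefix `dsckmh_`.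
-/
import Fermat.Agent.DS.C.Th.Kum.Defs
import Fermat.Agent.DS.C.Th.Kum.Alg
import Fermat.Agent.DS.C.Th.Kum.PerExp
import Fermat.Agent.DS.C.Th.Kum.Mem
import Fermat.Agent.DS.C.Th.Kum.Main
import Fermat.Agent.G.Kum.HeckeExp
import Fermat.Agent.G.Kum.HeckeCusp

set_option autoImplicit false
set_option linter.unusedSectionVars false
set_option linter.unusedVariables false
set_option linter.style.haveILetI false

noncomputable section

namespace Fermat.Agent.DS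

open UpperHalfPlane ModularCurve AlgebraicCurve CongruenceSubgroup Fermat.Agent.S24
  Fermat.Agent.S16LB Fermat.Agent.G IntermediateField
open P2MW.S_ModularForm_heckeT_slash_eq_self_of_mem_Gamma0.ModularForm.HeckeSlashInvariance
open scoped MatrixGroups Manifold ModularForm Real

/-! ### the operator -/

section Op

variable {p : ℕ} [Fact p.Prime]

/-- the correctors `c ∞ = c∞`, `c j = cf`. -/
def dsckmhCorr (p : ℕ) (cinf cf : SL(2, ℤ)) (x : OnePoint (ZMod p)) : SL(2, ℤ) :=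
  x.elim cinf (fun _ => cf)

@[simp] theorem dsckmhCorr_infty (cinf cf : SL(2, ℤ)) :
    dsckmhCorr p cinf cf (OnePoint.infty) = cinf := rfl

@[simp] theorem dsckmhCorr_coe (cinf cf : SL(2, ℤ)) (j : ZMod p) :
    dsckmhCorr p cinf cf (j : OnePoint (ZMod p)) = cf := rfl

/-- the analytic Hecke operator with correctors `c`: `τ ↦ ∏ x, G (c x • α_x • τ)`. -/
def dsckmHeckeHol (c : OnePoint (ZMod p) → SL(2, ℤ)) (G : HolRing) : HolRing :=
  ∏ x : OnePoint (ZMod p),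
    HolRing.compGL (heckeRep p x) (gkm_det_heckeRep_pos p x) ((c x)⁻¹ • G)

theorem dsckmHeckeHol_apply' (c : OnePoint (ZMod p) → SL(2, ℤ)) (G : HolRing) (τ : ℍ) :
    ((dsckmHeckeHol c G : HolRing) : ℍ → ℂ) τ =
      ∏ x : OnePoint (ZMod p),
        (((c x)⁻¹ • G : HolRing) : ℍ → ℂ) ((heckeRep p x : GL (Fin 2) ℝ) • τ) := by
  simp [dsckmHeckeHol]

theorem dsckmHeckeHol_apply (c : OnePoint (ZMod p) → SL(2, ℤ)) (G : HolRing) (τ : ℍ) :
    ((dsckmHeckeHol c G : HolRing) : ℍ → ℂ) τ =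
      ∏ x : OnePoint (ZMod p), (G : ℍ → ℂ)
        ((Matrix.SpecialLinearGroup.mapGL ℝ (c x) * heckeRep p x : GL (Fin 2) ℝ) • τ) := by
  rw [dsckmHeckeHol_apply']
  refine Finset.prod_congr rfl fun x _ => ?_
  rw [HolRing.inv_smul_apply, mul_smul]
  rfl

theorem dsckmHeckeHol_mul (c : OnePoint (ZMod p) → SL(2, ℤ)) (G G' : HolRing) :
    dsckmHeckeHol c (G * G') = dsckmHeckeHol c G * dsckmHeckeHol c G' := by
  simp only [dsckmHeckeHol, smul_mul', map_mul, Finset.prod_mul_distrib]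

theorem dsckmHeckeHol_pow (c : OnePoint (ZMod p) → SL(2, ℤ)) (G : HolRing) (m : ℕ) :
    dsckmHeckeHol c (G ^ m) = (dsckmHeckeHol c G) ^ m := by
  simp only [dsckmHeckeHol, smul_pow', map_pow, Finset.prod_pow]

/-! ### (HCUSP) -/

theorem dsckmh_cusp_smul {G : HolRing} (hc : DsckmCusp G) (g₀ : SL(2, ℤ)) :
    DsckmCusp (g₀ • G) := by
  intro g
  obtain ⟨h, hh, S, hS⟩ := hc (g * g₀)
  refine ⟨h, hh, S, ?_⟩
  rwa [mul_smul] at hS

/-- one factor: `τ ↦ G (α_x • g⁻¹ • τ)` has an expansion at `i∞`. -/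
theorem dsckmh_cusp_factor {G : HolRing} (hc : DsckmCusp G) (g : SL(2, ℤ))
    (x : OnePoint (ZMod p)) :
    ∃ (w : ℕ) (_ : w ≠ 0) (T : LaurentSeries ℂ),
      HasCuspExp w (fun τ : ℍ => (G : ℍ → ℂ) ((heckeRep p x : GL (Fin 2) ℝ) • (g⁻¹ • τ))) T := by
  have hp : p.Prime := Fact.out
  obtain ⟨g', -, hmul⟩ := heckeRep_mul (p := p) (N := 1)
    (fun h => hp.one_lt.ne' (Nat.dvd_one.mp h)) g⁻¹ (by simp) x
  set y := redMatrix p g⁻¹ • x with hy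
  obtain ⟨h, hne, S, hS⟩ := hc g'⁻¹
  have hfun : (fun τ : ℍ => (G : ℍ → ℂ) ((heckeRep p x : GL (Fin 2) ℝ) • (g⁻¹ • τ))) =
      fun τ : ℍ => ((g'⁻¹ • G : HolRing) : ℍ → ℂ) ((heckeRep p y : GL (Fin 2) ℝ) • τ) := by
    funext τ
    have e1 : ((heckeRep p x : GL (Fin 2) ℝ) • (g⁻¹ • τ) : ℍ) =
        ((heckeRep p x : GL (Fin 2) ℝ) * Matrix.SpecialLinearGroup.mapGL ℝ g⁻¹) • τ := by
      rw [mul_smul]
      rfl
    rw [e1, hmul, mul_smul, HolRing.inv_smul_apply]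
    rfl
  rw [hfun]
  have hA : s16lbRepA p y ≠ 0 := (s16lb_repA_pos y).ne'
  have hD : s16lbRepD p y ≠ 0 := (s16lb_repD_pos y).ne'
  have h1 := gkmc_comp_affine hne.ne hA hD (s16lbRepB p y : ℤ) (heckeRep p y)
    (fun τ => by rw [s16lb_coe_heckeRep_smul]; push_cast; rfl) hS
    (Units.mk0 _ (Complex.exp_ne_zero _)) (Units.val_mk0 _)
  exact ⟨_, mul_ne_zero hD hne.ne, _, h1⟩

/-- (HCUSP) `dsckmHeckeHol c G` is meromorphic at the cusps if `G` is. -/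
theorem dsckm_heckeHol_cusp (c : OnePoint (ZMod p) → SL(2, ℤ)) {G : HolRing}
    (hc : DsckmCusp G) : DsckmCusp (dsckmHeckeHol c G) := by
  intro g
  have key : ∀ x : OnePoint (ZMod p), ∃ (w : ℕ) (_ : w ≠ 0) (T : LaurentSeries ℂ),
      HasCuspExp w (fun τ : ℍ =>
        (((c x)⁻¹ • G : HolRing) : ℍ → ℂ) ((heckeRep p x : GL (Fin 2) ℝ) • (g⁻¹ • τ))) T :=
    fun x => dsckmh_cusp_factor (dsckmh_cusp_smul hc (c x)⁻¹) g x
  choose w hw T hT using key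
  obtain ⟨W, hW, S, hS⟩ := gkmc_prod Finset.univ
    (fun x τ => (((c x)⁻¹ • G : HolRing) : ℍ → ℂ) ((heckeRep p x : GL (Fin 2) ℝ) • (g⁻¹ • τ)))
    w (fun x _ => hw x) T (fun x _ => hT x)
  refine ⟨W, hW, S, ?_⟩
  have e : ((g • dsckmHeckeHol c G : HolRing) : ℍ → ℂ) =
      fun τ => ∏ x : OnePoint (ZMod p),
        (((c x)⁻¹ • G : HolRing) : ℍ → ℂ) ((heckeRep p x : GL (Fin 2) ℝ) • (g⁻¹ • τ)) := by
    funext τ
    rw [HolRing.smul_apply, dsckmHeckeHol_apply']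
  rw [e]
  exact hS

/-! ### (HEXP) -/

/-- the twisted Hecke norm relation: `S'(Q^p) = A(Q^(p²)) ∏_{i<p} B(ζ^i Q)`. -/
def DsckmIsHeckeNorm (p : ℕ) [Fact p.Prime] (ζ : ℂˣ) (A B S' : LaurentSeries ℂ) : Prop :=
  haveI : NeZero p := ⟨(Fact.out : p.Prime).ne_zero⟩
  qExpand ℂ p S' = qExpand ℂ (p * p) A * ∏ i ∈ Finset.range p, gcjTwist (ζ ^ i) B

theorem dsckmIsHeckeNorm_iff [NeZero p] (ζ : ℂˣ) (A B S' : LaurentSeries ℂ) :
    DsckmIsHeckeNorm p ζ A B S' ↔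
      qExpand ℂ p S' = qExpand ℂ (p * p) A * ∏ i ∈ Finset.range p, gcjTwist (ζ ^ i) B :=
  Iff.rfl

/-- the untwisted case is helper19's `GcjIsHeckeNorm`. -/
theorem dsckmIsHeckeNorm_self [NeZero p] (ζ : ℂˣ) (S S' : LaurentSeries ℂ) :
    DsckmIsHeckeNorm p ζ S S S' ↔ GcjIsHeckeNorm p ζ S S' := Iff.rfl

/-- (HEXP) the expansion of `dsckmHeckeHol c G` in `q^(1/p)`. -/
theorem dsckm_heckeHol_cuspExp_aux (c : OnePoint (ZMod p) → SL(2, ℤ)) {G : HolRing}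
    {A B : LaurentSeries ℂ}
    (hA : HasCuspExp 1 (((c OnePoint.infty)⁻¹ • G : HolRing) : ℍ → ℂ) A)
    (hB : ∀ j : ZMod p, HasCuspExp 1 (((c (j : OnePoint (ZMod p)))⁻¹ • G : HolRing) : ℍ → ℂ) B)
    (ζ : ℂˣ) (hζ : IsPrimitiveRoot ζ p) :
    haveI : NeZero p := ⟨(Fact.out : p.Prime).ne_zero⟩
    HasCuspExp p ((dsckmHeckeHol c G : HolRing) : ℍ → ℂ)
      (qExpand ℂ (p * p) A * ∏ i ∈ Finset.range p, gcjTwist (ζ ^ i) B) := by
  haveI : NeZero p := ⟨(Fact.out : p.Prime).ne_zero⟩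
  have hp : p ≠ 0 := (Fact.out : p.Prime).ne_zero
  have hfun : ((dsckmHeckeHol c G : HolRing) : ℍ → ℂ) =
      (fun τ => (((c OnePoint.infty)⁻¹ • G : HolRing) : ℍ → ℂ)
          ((heckeRep p (OnePoint.infty) : GL (Fin 2) ℝ) • τ)) *
        ∏ j : ZMod p,
          (fun τ => (((c (j : OnePoint (ZMod p)))⁻¹ • G : HolRing) : ℍ → ℂ)
            ((heckeRep p ((j : OnePoint (ZMod p))) : GL (Fin 2) ℝ) • τ)) := by
    funext τ
    rw [dsckmHeckeHol_apply', Pi.mul_apply, Finset.prod_apply]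
    exact Fintype.prod_option
      (fun i : Option (ZMod p) => (((c i)⁻¹ • G : HolRing) : ℍ → ℂ)
        ((heckeRep p i : GL (Fin 2) ℝ) • τ))
  have hser : ∏ i ∈ Finset.range p, gcjTwist (ζ ^ i) B =
      ∏ j : ZMod p, rotLaurent (gkmxExp p ^ j.val) B := by
    rw [gkmx_prod_zmod p (fun i => rotLaurent (gkmxExp p ^ i) B),
      gkmx_prod_pow_eq (fun c => rotLaurent c B) (gkmxExp_isPrimitiveRoot p hp) hζ]
    exact Finset.prod_congr rfl fun i _ => gkmx_twist_eq_rot _ _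
  rw [hfun, hser]
  exact (gkmx_cuspExp_infty hA).mul
    (gkmx_hasCuspExp_prod Finset.univ _ _ fun j _ => gkmx_cuspExp_coe (hB j) j)

/-- (HEXP) the expansion of `dsckmHeckeHol c G` is the twisted Hecke norm. -/
theorem dsckm_heckeHol_cuspExp (c : OnePoint (ZMod p) → SL(2, ℤ)) {G : HolRing}
    {A B S' : LaurentSeries ℂ}
    (hA : HasCuspExp 1 (((c OnePoint.infty)⁻¹ • G : HolRing) : ℍ → ℂ) A)
    (hB : ∀ j : ZMod p, HasCuspExp 1 (((c (j : OnePoint (ZMod p)))⁻¹ • G : HolRing) : ℍ → ℂ) B)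
    (ζ : ℂˣ) (hζ : IsPrimitiveRoot ζ p) (hS : DsckmIsHeckeNorm p ζ A B S') :
    HasCuspExp 1 ((dsckmHeckeHol c G : HolRing) : ℍ → ℂ) S' := by
  haveI : NeZero p := ⟨(Fact.out : p.Prime).ne_zero⟩
  have h1 := dsckm_heckeHol_cuspExp_aux c hA hB ζ hζ
  have hS' : qExpand ℂ p S' = qExpand ℂ (p * p) A * ∏ i ∈ Finset.range p, gcjTwist (ζ ^ i) B := hS
  rw [← hS'] at h1
  have h2 : HasCuspExp (1 * p) ((dsckmHeckeHol c G : HolRing) : ℍ → ℂ) (qExpand ℂ p S') := by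
    rw [one_mul]
    exact h1
  exact (cuspExp_qExpand_iff p).1 h2

/-- the twisted Hecke norm relation is multiplicative -/
theorem dsckmh_isHeckeNorm_mul_pow {ζ : ℂˣ} {A B S' A₁ B₁ S₁' : LaurentSeries ℂ}
    (h : DsckmIsHeckeNorm p ζ A B S') (h₁ : DsckmIsHeckeNorm p ζ A₁ B₁ S₁') (m : ℕ) :
    DsckmIsHeckeNorm p ζ (A * A₁ ^ m) (B * B₁ ^ m) (S' * S₁' ^ m) := by
  unfold DsckmIsHeckeNorm at *
  simp only [map_mul, map_pow, Finset.prod_mul_distrib, Finset.prod_pow, h, h₁]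
  ring

/-- a twisted Hecke norm of nonzero series is nonzero -/
theorem dsckmh_isHeckeNorm_ne_zero {ζ : ℂˣ} {A B S' : LaurentSeries ℂ}
    (h : DsckmIsHeckeNorm p ζ A B S') (hA : A ≠ 0) (hB : B ≠ 0) : S' ≠ 0 := by
  haveI : NeZero p := ⟨(Fact.out : p.Prime).ne_zero⟩
  intro h0
  have h1 : qExpand ℂ p S' = 0 := by rw [h0, map_zero]
  have h' : qExpand ℂ p S' = qExpand ℂ (p * p) A * ∏ i ∈ Finset.range p, gcjTwist (ζ ^ i) B := h
  rw [h'] at h1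
  rcases mul_eq_zero.1 h1 with h2 | h2
  · exact hA ((map_eq_zero_iff _ (qExpand ℂ (p * p)).injective).1 h2)
  · obtain ⟨i, -, hi⟩ := Finset.prod_eq_zero_iff.1 h2
    exact hB ((map_eq_zero_iff _ (gcjTwist (ζ ^ i)).injective).1 hi)

end Op

/-! ### (TWIST) the diamond twist on holomorphic elements -/

section Twist

variable {L : DscLevelC}

/-- pointwise form of `DsckmMult`. -/
theorem dsckmh_mult_apply {χ : L.Γ →* ℂˣ} {H : HolRing} (h : DsckmMult L χ H)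
    (γ : L.Γ) (τ : ℍ) :
    (H : ℍ → ℂ) ((Matrix.SpecialLinearGroup.mapGL ℝ (γ : SL(2, ℤ)) : GL (Fin 2) ℝ) • τ) =
      ((χ γ : ℂˣ) : ℂ) * (H : ℍ → ℂ) τ := by
  have h1 := congrArg (fun F : HolRing => (F : ℍ → ℂ) τ) (h γ)
  simp only [HolRing.inv_smul_apply, Subring.coe_mul, Pi.mul_apply, HolRing.C_apply] at h1
  exact h1

/-- pointwise criterion for `DsckmMult`. -/
theorem dsckmh_mult_of_apply {χ : L.Γ →* ℂˣ} {H : HolRing}
    (h : ∀ (γ : L.Γ) (τ : ℍ),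
      (H : ℍ → ℂ) ((Matrix.SpecialLinearGroup.mapGL ℝ (γ : SL(2, ℤ)) : GL (Fin 2) ℝ) • τ) =
        ((χ γ : ℂˣ) : ℂ) * (H : ℍ → ℂ) τ) : DsckmMult L χ H := by
  intro γ
  ext τ
  simp only [HolRing.inv_smul_apply, Subring.coe_mul, Pi.mul_apply, HolRing.C_apply]
  exact h γ τ

/-- (TWIST) if `toHol` intertwines `δ` with `σ⁻¹ •` on `L.R`, then every holomorphic function `G`
with expansion `x ∈ L.F` has `σ⁻¹ • G` with expansion `δ x`. -/
theorem dsckmh_hasCuspExp_twist {σ : SL(2, ℤ)} {δ : L.F →+* L.F}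
    (hδ : ∀ r : L.R, ∃ r' : L.R, (r' : L.F) = δ (r : L.F) ∧ L.toHol r' = σ⁻¹ • L.toHol r)
    {x : L.F} {G : HolRing}
    (hG : HasCuspExp 1 (G : ℍ → ℂ) ((x : L.F) : LaurentSeries ℂ)) :
    HasCuspExp 1 ((σ⁻¹ • G : HolRing) : ℍ → ℂ) ((δ x : L.F) : LaurentSeries ℂ) := by
  obtain ⟨a, s, hs, hxs⟩ := dsckma_exists_frac x
  have hmul : G * L.toHol s = L.toHol a := dsckma_mul_toHol hG hxs
  obtain ⟨s', hs', hs'H⟩ := hδ s
  obtain ⟨a', ha', ha'H⟩ := hδ a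
  have hmul' : (σ⁻¹ • G) * L.toHol s' = L.toHol a' := by
    rw [hs'H, ha'H, ← smul_mul', hmul]
  obtain ⟨h, hh, S, hS⟩ := dsckm_hol_cusp hG σ⁻¹
  have hEs : HasCuspExp h ((L.toHol s' : HolRing) : ℍ → ℂ)
      (qExpand ℂ h ((δ (s : L.F) : L.F) : LaurentSeries ℂ)) := by
    have h1 := (dsckm_hasCuspExp_toHol L s').qExpand h
    rwa [one_mul, hs'] at h1
  have hEa : HasCuspExp h ((L.toHol a' : HolRing) : ℍ → ℂ)
      (qExpand ℂ h ((δ (a : L.F) : L.F) : LaurentSeries ℂ)) := by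
    have h1 := (dsckm_hasCuspExp_toHol L a').qExpand h
    rwa [one_mul, ha'] at h1
  have hprod : HasCuspExp h ((L.toHol a' : HolRing) : ℍ → ℂ)
      (S * qExpand ℂ h ((δ (s : L.F) : L.F) : LaurentSeries ℂ)) := by
    rw [← hmul', dsckma_hol_coe_mul]
    exact hS.mul hEs
  have hsne : qExpand ℂ h ((δ (s : L.F) : L.F) : LaurentSeries ℂ) ≠ 0 := by
    rw [Ne, map_eq_zero_iff _ (qExpand ℂ h).injective]
    intro h0
    have h1 : δ (s : L.F) = 0 := Subtype.ext h0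
    rw [map_eq_zero] at h1
    exact hs (Subtype.ext h1)
  have heq : S * qExpand ℂ h ((δ (s : L.F) : L.F) : LaurentSeries ℂ) =
      qExpand ℂ h ((δ x : L.F) : LaurentSeries ℂ) *
        qExpand ℂ h ((δ (s : L.F) : L.F) : LaurentSeries ℂ) := by
    rw [hprod.unique hEa, ← map_mul, ← dsckma_coe_mul, ← map_mul, hxs]
  have hSeq : S = qExpand ℂ h ((δ x : L.F) : LaurentSeries ℂ) := mul_right_cancel₀ hsne heq
  rw [hSeq] at hS
  have h2 : HasCuspExp (1 * h) ((σ⁻¹ • G : HolRing) : ℍ → ℂ)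
      (qExpand ℂ h ((δ x : L.F) : LaurentSeries ℂ)) := by
    rw [one_mul]
    exact hS
  exact (cuspExp_qExpand_iff h).1 h2

/-- the trivial twist. -/
theorem dsckmh_twist_one (r : L.R) :
    ∃ r' : L.R, (r' : L.F) = RingHom.id L.F (r : L.F) ∧
      L.toHol r' = (1 : SL(2, ℤ))⁻¹ • L.toHol r :=
  ⟨r, rfl, by rw [inv_one, one_smul]⟩

end Twist

/-! ### (HMULT) -/

section Mult

variable {L : DscLevelC} {p : ℕ} [Fact p.Prime]

/-- (HMULT) the multiplier of `dsckmHeckeHol c H` is the transfer of the multiplier of `H`. -/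
theorem dsckm_heckeHol_smul {Γ' : Type*} [Group Γ']
    (D : S16lbHeckeData (GL (Fin 2) ℝ) Γ' (OnePoint (ZMod p)))
    (c : OnePoint (ZMod p) → SL(2, ℤ))
    (hα : ∀ x, D.α x = Matrix.SpecialLinearGroup.mapGL ℝ (c x) * heckeRep p x)
    (j : Γ' →* L.Γ)
    (hj : ∀ γ : Γ', D.ι γ = Matrix.SpecialLinearGroup.mapGL ℝ ((j γ : L.Γ) : SL(2, ℤ)))
    {χ : L.Γ →* ℂˣ} {H : HolRing} (h : DsckmMult L χ H) (γ : Γ') (τ : ℍ) :
    ((dsckmHeckeHol c H : HolRing) : ℍ → ℂ)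
        ((Matrix.SpecialLinearGroup.mapGL ℝ ((j γ : L.Γ) : SL(2, ℤ)) : GL (Fin 2) ℝ) • τ) =
      ((∏ i, χ (j (D.coc γ i)) : ℂˣ) : ℂ) * ((dsckmHeckeHol c H : HolRing) : ℍ → ℂ) τ := by
  rw [dsckmHeckeHol_apply, dsckmHeckeHol_apply]
  have h1 : ∀ i : OnePoint (ZMod p),
      (H : ℍ → ℂ) ((Matrix.SpecialLinearGroup.mapGL ℝ (c i) * heckeRep p i : GL (Fin 2) ℝ) •
        ((Matrix.SpecialLinearGroup.mapGL ℝ ((j γ : L.Γ) : SL(2, ℤ)) : GL (Fin 2) ℝ) • τ)) =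
      ((χ (j (D.coc γ i)) : ℂˣ) : ℂ) *
        (H : ℍ → ℂ) ((Matrix.SpecialLinearGroup.mapGL ℝ (c (D.idx γ i)) *
          heckeRep p (D.idx γ i) : GL (Fin 2) ℝ) • τ) := by
    intro i
    have hs := D.spec γ i
    rw [hα, hα, hj, hj] at hs
    rw [← mul_smul, hs, mul_smul]
    exact dsckmh_mult_apply h (j (D.coc γ i)) _
  rw [Finset.prod_congr rfl fun i _ => h1 i, Finset.prod_mul_distrib, Units.coe_prod]
  congr 1
  exact Equiv.prod_comp (D.perm γ)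
    (fun i => (H : ℍ → ℂ) ((Matrix.SpecialLinearGroup.mapGL ℝ (c i) *
      heckeRep p i : GL (Fin 2) ℝ) • τ))

end Mult

/-! ### (HECKE) -/

section Rel

variable {L : DscLevelC} {n : ℕ} {p : ℕ} [Fact p.Prime]

/-- `± g` act in the same way on `ℍ`. -/
theorem dsckmh_smul_eq_of_eq_or_neg {g g' : SL(2, ℤ)} (h : g = g' ∨ g = -g') (τ : ℍ) :
    ((Matrix.SpecialLinearGroup.mapGL ℝ g : GL (Fin 2) ℝ) • τ : ℍ) =
      (Matrix.SpecialLinearGroup.mapGL ℝ g' : GL (Fin 2) ℝ) • τ := by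
  show g • τ = g' • τ
  rcases h with h | h
  · rw [h]
  · rw [h, ModularGroup.SL_neg_smul]

/-- (HECKE, generic) if `x` is related to a function with an `n`-th root of multiplier `χ` and `y` is
the twisted Hecke norm of `x`, then `y` is related to a function with an `n`-th root whose multiplier
`χ'` is the transfer of `χ`: `χ' (± j γ) = ∏ i, χ (j (D.coc γ i))`. -/
theorem dsckm_rel_hecke_gen (hn : 0 < n) {Γ' : Type*} [Group Γ']
    (D : S16lbHeckeData (GL (Fin 2) ℝ) Γ' (OnePoint (ZMod p))) (cinf cf : SL(2, ℤ))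
    (hα : ∀ x, D.α x = Matrix.SpecialLinearGroup.mapGL ℝ (dsckmhCorr p cinf cf x) * heckeRep p x)
    (j : Γ' →* L.Γ)
    (hj : ∀ γ : Γ', D.ι γ = Matrix.SpecialLinearGroup.mapGL ℝ ((j γ : L.Γ) : SL(2, ℤ)))
    (hcov : ∀ γ : L.Γ, ∃ γ' : Γ', (γ : SL(2, ℤ)) = ((j γ' : L.Γ) : SL(2, ℤ)) ∨
      (γ : SL(2, ℤ)) = -((j γ' : L.Γ) : SL(2, ℤ)))
    (δinf δf : L.F →+* L.F)
    (hδinf : ∀ r : L.R, ∃ r' : L.R, (r' : L.F) = δinf (r : L.F) ∧
      L.toHol r' = cinf⁻¹ • L.toHol r)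
    (hδf : ∀ r : L.R, ∃ r' : L.R, (r' : L.F) = δf (r : L.F) ∧ L.toHol r' = cf⁻¹ • L.toHol r)
    (ζ : ℂˣ) (hζ : IsPrimitiveRoot ζ p) {χ : L.Γ →* ℂˣ} {x y : L.F} (hx : x ≠ 0)
    (hxy : DsckmIsHeckeNorm p ζ ((δinf x : L.F) : LaurentSeries ℂ)
      ((δf x : L.F) : LaurentSeries ℂ) ((y : L.F) : LaurentSeries ℂ))
    (h : DsckmRel L n χ x) :
    ∃ χ' : L.Γ →* ℂˣ, DsckmRel L n χ' y ∧
      ∀ (γ : L.Γ) (γ' : Γ'), ((γ : SL(2, ℤ)) = ((j γ' : L.Γ) : SL(2, ℤ)) ∨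
        (γ : SL(2, ℤ)) = -((j γ' : L.Γ) : SL(2, ℤ))) → χ' γ = ∏ i, χ (j (D.coc γ' i)) := by
  classical
  haveI : NeZero p := ⟨(Fact.out : p.Prime).ne_zero⟩
  obtain ⟨b, hb, H, hH, hm⟩ := h
  set c := dsckmhCorr p cinf cf with hc
  -- write `b = r / s` with `r, s ∈ L.R`
  haveI := L.frac
  obtain ⟨r, s, hs, hrs⟩ := IsFractionRing.div_surjective (A := L.R) b
  have hs0 : (s : L.F) ≠ 0 := by
    have := nonZeroDivisors.ne_zero hs
    exact fun h0 => this (Subtype.ext h0)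
  have hr0 : (r : L.F) ≠ 0 := by
    intro h0
    apply hb
    rw [← hrs]
    show (r : L.F) / (s : L.F) = 0
    rw [h0, zero_div]
  have hbrs : b * (s : L.F) = (r : L.F) := by
    rw [← hrs]
    show (r : L.F) / (s : L.F) * (s : L.F) = (r : L.F)
    exact div_mul_cancel₀ _ hs0
  -- the new root `H * toHol s` of `x r^n`
  have hH' : HasCuspExp 1 (((H * L.toHol s) ^ n : HolRing) : ℍ → ℂ)
      (((x * (r : L.F) ^ n : L.F)) : LaurentSeries ℂ) := by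
    have h1 := dsckmw_hol_mul hH (dsckmw_hol_pow (dsckmw_hol_toHol s) n)
    rw [← mul_pow] at h1
    have h2 : x * b ^ n * (s : L.F) ^ n = x * (r : L.F) ^ n := by
      rw [mul_assoc, ← mul_pow, hbrs]
    rwa [h2] at h1
  have hm' : DsckmMult L χ (H * L.toHol s) := by
    have h1 := dsckm_mult_mul hm (dsckm_hol_invariant (dsckmw_hol_toHol s))
    have h2 : χ * (1 : L.Γ →* ℂˣ) = χ := by
      ext γ
      simp
    rw [h2] at h1
    exact h1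
  -- the Hecke norm of `r`
  have hB := dsckmw_hol_toHol r
  have hBinf := dsckmh_hasCuspExp_twist hδinf hB
  have hBf := dsckmh_hasCuspExp_twist hδf hB
  have hTBinv : DsckmMult L 1 (dsckmHeckeHol c (L.toHol r)) := by
    refine dsckmh_mult_of_apply fun γ τ => ?_
    obtain ⟨γ', hγ'⟩ := hcov γ
    rw [dsckmh_smul_eq_of_eq_or_neg hγ' τ,
      dsckm_heckeHol_smul D c hα j hj (dsckm_hol_invariant hB) γ' τ]
    simp
  have hTBcusp : DsckmCusp (dsckmHeckeHol c (L.toHol r)) :=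
    dsckm_heckeHol_cusp c (dsckm_cusp_toHol r)
  obtain ⟨r', hr'⟩ := dsckm_mem_of_cusp _ hTBinv hTBcusp
  have hnorm_r : DsckmIsHeckeNorm p ζ ((δinf (r : L.F) : L.F) : LaurentSeries ℂ)
      ((δf (r : L.F) : L.F) : LaurentSeries ℂ) ((r' : L.F) : LaurentSeries ℂ) := by
    have h1 := dsckm_heckeHol_cuspExp_aux c (G := L.toHol r) hBinf (fun _ => hBf) ζ hζ
    have h2 := hr'.qExpand p
    rw [one_mul] at h2
    exact h2.unique h1
  have hcoe0 : ∀ {z : L.F}, z ≠ 0 → ((z : L.F) : LaurentSeries ℂ) ≠ 0 :=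
    fun hz h0 => hz (Subtype.ext h0)
  have hδ0 : ∀ (δ : L.F →+* L.F) {z : L.F}, z ≠ 0 → ((δ z : L.F) : LaurentSeries ℂ) ≠ 0 :=
    fun δ z hz => hcoe0 ((map_ne_zero δ).2 hz)
  have hr'0 : r' ≠ 0 := by
    intro h0
    refine dsckmh_isHeckeNorm_ne_zero hnorm_r (hδ0 δinf hr0) (hδ0 δf hr0) ?_
    rw [h0]
    rfl
  have hy : y ≠ 0 := by
    intro h0
    refine dsckmh_isHeckeNorm_ne_zero hxy (hδ0 δinf hx) (hδ0 δf hx) ?_
    rw [h0]
    rfl
  -- the Hecke norm of `x r^n`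
  have hnorm : DsckmIsHeckeNorm p ζ
      ((δinf (x * (r : L.F) ^ n) : L.F) : LaurentSeries ℂ)
      ((δf (x * (r : L.F) ^ n) : L.F) : LaurentSeries ℂ)
      (((y * r' ^ n : L.F)) : LaurentSeries ℂ) := by
    have := dsckmh_isHeckeNorm_mul_pow hxy hnorm_r n
    simpa [map_mul, map_pow] using this
  -- the new root
  have hH'exp : HasCuspExp 1 (((dsckmHeckeHol c (H * L.toHol s)) ^ n : HolRing) : ℍ → ℂ)
      (((y * r' ^ n : L.F)) : LaurentSeries ℂ) := by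
    rw [← dsckmHeckeHol_pow]
    exact dsckm_heckeHol_cuspExp c (dsckmh_hasCuspExp_twist hδinf hH')
      (fun _ => dsckmh_hasCuspExp_twist hδf hH') ζ hζ hnorm
  have hyr : y * r' ^ n ≠ 0 := mul_ne_zero hy (pow_ne_zero n hr'0)
  have hH'0 : dsckmHeckeHol c (H * L.toHol s) ≠ 0 := by
    intro h0
    apply hyr
    rw [← dsckmw_hol_eq_zero_iff hH'exp, h0, zero_pow hn.ne']
  obtain ⟨χ', hχ'⟩ := dsckm_exists_mult hn _ hH'0 (dsckm_hol_invariant hH'exp)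
  refine ⟨χ', ⟨r', hr'0, _, hH'exp, hχ'⟩, ?_⟩
  intro γ γ' hγ
  obtain ⟨τ, hτ⟩ : ∃ τ : ℍ, ((dsckmHeckeHol c (H * L.toHol s) : HolRing) : ℍ → ℂ) τ ≠ 0 := by
    by_contra hall
    push Not at hall
    exact hH'0 (Subtype.ext (funext hall))
  have h1 := dsckmh_mult_apply hχ' γ τ
  rw [dsckmh_smul_eq_of_eq_or_neg hγ τ, dsckm_heckeHol_smul D c hα j hj hm' γ' τ] at h1
  exact Units.ext (mul_right_cancel₀ hτ h1).symm

end Rel

end Fermat.Agent.DS
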